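import Fermat.Agent.Ribet.H158.WallQGood
import Fermat.Agent.Ribet.H699.HeckeNodeGenQ
import Fermat.Agent.Ribet.H398.HeckeFun
import Fermat.Agent.Ribet.H997.RedField
import Fermat.Agent.Ribet.H644.CuspPurityQGood

/-!
# S59 / cell B1 (LO-Q), target (Q4) with an ABSTRACT Eisenstein unit  (helper464)

`H158.WallQ.isEisModQ_of_slopePropQM'` (main) is tied to THE modular unit `Δ(t^q)/Δ(t)`
(`H884.IsModUnit`, slope `12`), so it can only be fed at torsion orders prime to `12`.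
Here the unit is abstract: any series `U` which is an Eisenstein eigenfunction
(`kronNorm ℓ U = c · U^(ℓ+1)` off a finite set of primes).

* `SlopePropQMU m q M' A U x` : `x` has a Kummer generator `f` with `G · D^b = f^n · D^a`,
  `n ≠ 0` prime to `m`, `D` of expansion `U`, `G` of `NodeGenQ` shape;
* `isEisModQ_of_slopePropQMU` : `SlopePropQMU ⟹ IsEisModQ` (HECKE-FUN, HECKE-NODE-q, RED of main
  plugged; CUSP-q as hypothesis);
* `q4For_of_slopePropQMU` : `(Q4)` for `𝓕 = finPartQ p q M' A` from a pointwise CORE-OUT in the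
  `U`-form, at any level with the auxiliary prime (`S35.G.HasAux M' q`), any primes `p ≠ q`.
-/

set_option autoImplicit false
set_option synthInstance.maxHeartbeats 400000
set_option maxHeartbeats 1000000
set_option linter.unusedSectionVars false
set_option linter.style.haveILetI false

noncomputable section

namespace Fermat.Agent.S59.UnitQR.H464

open AlgebraicCurve ModularCurve HahnSeries
open Fermat.Agent.S24 Fermat.Agent.A2.H708 Fermat.Agent.A2.H528 Fermat.Agent.A2.H129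
open Fermat.Agent.Ribet Fermat.Agent.Ribet.Spec Fermat.Agent.Ribet.H944.Wall
open Fermat.Agent.Ribet.H884 Fermat.Agent.S37.H400
open Fermat.Agent.Ribet.H158.WallQ

/-- The slope vector of the `m`-torsion class `x` is a multiple of the slope vector of a function
`D` with `t`-expansion `U` (`n ≠ 0` prime to `m`). -/
def SlopePropQMU (m q M' : ℕ) [NeZero q] [NeZero (q * M')] (A : ValuationSubring Kbar)
    (U : LaurentSeries Kbar) (x : JZero (q * M')) : Prop :=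
  ∃ (f D G : FF (q * M')) (n a b : ℕ), IsKummerGen (q * M') m f x ∧
    (D : LaurentSeries Kbar) = U ∧
    D ≠ 0 ∧ n ≠ 0 ∧ Nat.Coprime n m ∧ G * D ^ b = f ^ n * D ^ a ∧ NodeGenQ m q M' A G

/-- `U` is an Eisenstein eigenfunction at every prime `ℓ ∉ S₀`. -/
def IsEisSeries (S₀ : Finset ℕ) (U : LaurentSeries Kbar) : Prop :=
  ∀ (ℓ : Nat.Primes) [NeZero (ℓ : ℕ)], (ℓ : ℕ) ∉ S₀ →
    ∃ c : Kbar, c ≠ 0 ∧ kronNorm (ℓ : ℕ) U = cst c * U ^ ((ℓ : ℕ) + 1)

/-- The old unit is an instance. -/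
theorem slopePropQMU_of_slopePropQM {m q M' : ℕ} [NeZero q] [NeZero (q * M')]
    {A : ValuationSubring Kbar} {x : JZero (q * M')} (h : SlopePropQM m q M' A x) :
    SlopePropQMU m q M' A (Fermat.Agent.S28.unitL Kbar q) x := by
  obtain ⟨f, D, G, n, a, b, hf, hD, hD0, hn0, hn, hG, hNG⟩ := h
  exact ⟨f, D, G, n, a, b, hf, hD, hD0, hn0, hn, hG, hNG⟩

/-- **EIS-q core with an abstract unit**: proportional slopes ⇒ Eisenstein slopes. -/
theorem isEisModQ_of_slopePropQMU_core (hHF : HeckeFunStatement)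
    (hRE : RedExistsStatement) (hRU : RedUniqueStatement) (hRF : RedFieldStatement)
    (m p q M' : ℕ) [NeZero M'] [NeZero q] [NeZero (q * M')] (hp : p ≠ 0) (hq : q.Prime)
    (hqM : ¬ q ∣ M') (A : ValuationSubring Kbar) (hA : A.LiesOverPrime q)
    (S₀ : Finset ℕ) (U : LaurentSeries Kbar) (hU : IsEisSeries S₀ U)
    (hHN : ∀ (ℓ : Nat.Primes) [NeZero (ℓ : ℕ)], ¬ (ℓ : ℕ) ∣ q * M' * p →
      ∀ f g : FF (q * M'),
        (g : LaurentSeries Kbar) = kronNorm (ℓ : ℕ) (f : LaurentSeries Kbar) →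
        NodeGenQ m q M' A f → NodeGenQ m q M' A g)
    (hCP : ∀ (g : FF (q * M')) (y : JZero (q * M')), IsKummerGen (q * M') m g y →
      NodeGenQ m q M' A g → FinGenQ m q M' A g)
    (x : JZero (q * M')) (hx : SlopePropQMU m q M' A U x) :
    IsEisModQ m q M' A ((q * M' * p).primeFactors ∪ S₀) x := by
  intro ℓ hℓ
  have : NeZero (ℓ : ℕ) := ⟨ℓ.2.ne_zero⟩
  have hNp0 : q * M' * p ≠ 0 := mul_ne_zero (NeZero.ne _) hp
  have hℓ1 : (ℓ : ℕ) ∉ (q * M' * p).primeFactors := fun h => hℓ (Finset.mem_union_left _ h)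
  have hℓ2 : (ℓ : ℕ) ∉ S₀ := fun h => hℓ (Finset.mem_union_right _ h)
  have hℓNp : ¬ (ℓ : ℕ) ∣ q * M' * p := fun h =>
    hℓ1 (Nat.mem_primeFactors.mpr ⟨ℓ.2, h, hNp0⟩)
  have hℓN : ¬ (ℓ : ℕ) ∣ q * M' := fun h => hℓNp (dvd_mul_of_dvd_left h p)
  obtain ⟨f, D, G, n, a, b, hf, hD, hD0, hn0, hn, hG, hNG⟩ := hx
  obtain ⟨Tf, hTf, hTfK⟩ := hHF (q * M') ℓ hℓN f
  obtain ⟨TG, hTG, -⟩ := hHF (q * M') ℓ hℓN G
  obtain ⟨c, hc, hUD⟩ := hU ℓ hℓ2
  have hf0 : f ≠ 0 := hf.1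
  have hG0 : G ≠ 0 := hNG.ne_zero
  set C : FF (q * M') := algebraMap Kbar (FF (q * M')) c with hC
  have hC0 : C ≠ 0 := by simpa [hC] using hc
  set E : FF (q * M') := D ^ ((ℓ : ℕ) + 1) with hE
  have hE0 : E ≠ 0 := pow_ne_zero _ hD0
  have h2 : TG * (C * E) ^ b = Tf ^ n * (C * E) ^ a := by
    apply Subtype.ext
    have e1 : ((C * E : FF (q * M')) : LaurentSeries Kbar) =
        kronNorm (ℓ : ℕ) (D : LaurentSeries Kbar) := by
      have hCE : ((C * E : FF (q * M')) : LaurentSeries Kbar) =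
          cst c * (D : LaurentSeries Kbar) ^ ((ℓ : ℕ) + 1) := rfl
      rw [hCE, hD, hUD]
    have e2 : ((TG * (C * E) ^ b : FF (q * M')) : LaurentSeries Kbar) =
        kronNorm (ℓ : ℕ) ((G * D ^ b : FF (q * M')) : LaurentSeries Kbar) := by
      have : ((G * D ^ b : FF (q * M')) : LaurentSeries Kbar) =
          (G : LaurentSeries Kbar) * (D : LaurentSeries Kbar) ^ b := rfl
      rw [this, kronNorm_mul, kronNorm_pow, ← hTG, ← e1]
      rfl
    have e3 : ((Tf ^ n * (C * E) ^ a : FF (q * M')) : LaurentSeries Kbar) =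
        kronNorm (ℓ : ℕ) ((f ^ n * D ^ a : FF (q * M')) : LaurentSeries Kbar) := by
      have : ((f ^ n * D ^ a : FF (q * M')) : LaurentSeries Kbar) =
          (f : LaurentSeries Kbar) ^ n * (D : LaurentSeries Kbar) ^ a := rfl
      rw [this, kronNorm_mul, kronNorm_pow, kronNorm_pow, ← hTf, ← e1]
      rfl
    rw [e2, e3, hG]
  have h3 : G ^ ((ℓ : ℕ) + 1) * E ^ b = f ^ (n * ((ℓ : ℕ) + 1)) * E ^ a := by
    have h3' : (G * D ^ b) ^ ((ℓ : ℕ) + 1) = (f ^ n * D ^ a) ^ ((ℓ : ℕ) + 1) := by rw [hG]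
    calc G ^ ((ℓ : ℕ) + 1) * E ^ b = (G * D ^ b) ^ ((ℓ : ℕ) + 1) := by rw [hE]; ring
      _ = (f ^ n * D ^ a) ^ ((ℓ : ℕ) + 1) := h3'
      _ = f ^ (n * ((ℓ : ℕ) + 1)) * E ^ a := by rw [hE]; ring
  set g : FF (q * M') := Tf * (f ^ ((ℓ : ℕ) + 1))⁻¹ with hg
  have hgK : IsKummerGen (q * M') m g
      (heckeOperatorBar (q * M') ℓ x - ((ℓ : ℕ) + 1) • x) := by
    have := (hTfK m x hf).mul ((hf.pow ((ℓ : ℕ) + 1)).inv)
    rwa [← sub_eq_add_neg] at this
  have hg0 : g ≠ 0 := hgK.1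
  have h4 : Tf ^ n * C ^ a * G ^ ((ℓ : ℕ) + 1) = C ^ b * TG * f ^ (n * ((ℓ : ℕ) + 1)) := by
    have hEE : E ^ a * E ^ b ≠ 0 := mul_ne_zero (pow_ne_zero _ hE0) (pow_ne_zero _ hE0)
    apply mul_right_cancel₀ hEE
    rw [mul_pow, mul_pow] at h2
    linear_combination (-(f ^ (n * ((ℓ : ℕ) + 1)) * E ^ a)) * h2 + (Tf ^ n * C ^ a * E ^ a) * h3
  have h5 : g ^ n = algebraMap Kbar (FF (q * M')) (c ^ b * (c ^ a)⁻¹) *
      (TG * (G ^ ((ℓ : ℕ) + 1))⁻¹) := by
    have hCa : C ^ a ≠ 0 := pow_ne_zero _ hC0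
    have hGl : G ^ ((ℓ : ℕ) + 1) ≠ 0 := pow_ne_zero _ hG0
    have hfl : f ^ ((ℓ : ℕ) + 1) ≠ 0 := pow_ne_zero _ hf0
    have hcc : algebraMap Kbar (FF (q * M')) (c ^ b * (c ^ a)⁻¹) = C ^ b * (C ^ a)⁻¹ := by
      rw [map_mul, map_inv₀, map_pow, map_pow]
    rw [hcc, hg, mul_pow, inv_pow, ← pow_mul, mul_comm ((ℓ : ℕ) + 1) n]
    have hfn : f ^ (n * ((ℓ : ℕ) + 1)) ≠ 0 := pow_ne_zero _ hf0
    field_simp
    linear_combination h4
  have hcb : c ^ b * (c ^ a)⁻¹ ≠ 0 :=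
    mul_ne_zero (pow_ne_zero _ hc) (inv_ne_zero (pow_ne_zero _ hc))
  have hNGn : NodeGenQ m q M' A (g ^ n) := by
    rw [h5]
    exact ((hHN ℓ hℓNp G TG hTG hNG).mul (hNG.pow _).inv).const_mul hcb
  have hNGg : NodeGenQ m q M' A g :=
    NodeGenQ.of_pow_coprime hRE hRU hRF hq hqM hA hn0 hn hg0 hNGn
  exact AddSubgroup.subset_closure ⟨g, hgK, hCP g _ hgK hNGg⟩

/-- **EIS-q with an abstract unit, leaves of main plugged** (torsion order `p`, level with the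
auxiliary prime). -/
theorem isEisModQ_of_slopePropQMU (p q M' : ℕ) [NeZero M'] [NeZero q] [NeZero (q * M')]
    (hp : p.Prime) (hq : q.Prime) (hqp : q ≠ p) (hqM : ¬ q ∣ M')
    (hAux : Fermat.Agent.S35.G.HasAux M' q)
    (A : ValuationSubring Kbar) (hA : A.LiesOverPrime q)
    (S₀ : Finset ℕ) (U : LaurentSeries Kbar) (hU : IsEisSeries S₀ U)
    (x : JZero (q * M')) (hx : SlopePropQMU p q M' A U x) :
    IsEisModQ p q M' A ((q * M' * p).primeFactors ∪ S₀) x := by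
  refine isEisModQ_of_slopePropQMU_core H398.heckeFun H997.redExists H997.redUnique
    H997.redField p p q M' hp.ne_zero hq hqM A hA S₀ U hU ?_ ?_ x hx
  · intro ℓ _ hℓ f g hg hf
    have h := H699.heckeNodeGenQPow p 1 q M' hp Nat.one_pos hq hqp hqM A hA ℓ hℓ f g hg
    rw [pow_one] at h
    exact h hf
  · intro g y hg hN
    exact H644.cuspPurityAux p q M' hq hqM hAux hp.pos A hA g y hg hN

/-- **(Q4) from a pointwise CORE-OUT in the `U`-form.** -/
theorem q4For_of_slopePropQMU (p q M' : ℕ) [NeZero M'] [NeZero q] [NeZero (q * M')]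
    (hp : p.Prime) (hq : q.Prime) (hqp : q ≠ p) (hqM : ¬ q ∣ M')
    (hAux : Fermat.Agent.S35.G.HasAux M' q)
    (A : ValuationSubring Kbar) (hA : A.LiesOverPrime q)
    (hCO : ∀ (S : Finset ℕ) (a : ℕ → ℤ) (x : JZero (q * M')),
      IsNewTorsQ p q M' x → EigenAt (q * M') S a x →
      (∀ σ ∈ A.inertiaSubgroupIn ℚ, σ • x = x) →
      ∃ (S₀ : Finset ℕ) (U : LaurentSeries Kbar), IsEisSeries S₀ U ∧
        SlopePropQMU p q M' A U x) :
    Q4For p q M' A (finPartQ p q M' A) := by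
  intro S a hNE x hx hex hfix
  obtain ⟨S₀, U, hU, hS⟩ := hCO S a x hx hex hfix
  exact mem_finPartQ_of_eis p q M' hp A S _ a hNE x hx.1 hex
    (isEisModQ_of_slopePropQMU p q M' hp hq hqp hqM hAux A hA S₀ U hU x hS)

end Fermat.Agent.S59.UnitQR.H464
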