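import Fermat.Agent.S59.UnitQR.H464.QRPair
import Fermat.Agent.S59.UnitQR.H464.Q4U
import Fermat.Agent.Ribet.H698.TameGen
import Fermat.Agent.S59.Unit3.H37.EtaQuotShapes

/-!
# S59 / cell B1 (LO-Q), cell T3-NEAT: target (Q4) at `p = 3` at the NEAT levels  (helper464)

Assembly of
* UNIT-QR (`muQR_package`, `exists_unitPair_cutQR`: the unit `v = (η₁η_r/(η_qη_{qr}))⁸`,
  exponent `8`),
* TAME with an abstract unit pair (helper698 `H698.TameGen.tameCore_gen`),
* UNIT-EIS for η-quotients (helper37 `unitEis_shapeQR`),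
* the EIS-q glue with an abstract unit (`Q4U.lean`), HECKE-FUN / HECKE-NODE-q / RED / CUSP-q of
  main.

* `unitPairGen_QR`    : the `H698.TameGen.UnitPairGen` input for every exponent `m` prime to `8`;
* `isEisSeries_vQR`   : `v` is an Eisenstein eigenfunction off `q r`;
* `slopePropQMU_vQR`  : CORE-OUT-q in the `U`-form, any `m`-torsion class fixed by inertia,
                        `m` prime to `8`;
* `q4For_of_qrAdm`    : `(Q4)` at `(p, q, M')`, any odd prime `p ≠ q`, `r ∣ M'`;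
* `q4For_three_neat`  : `(Q4)` at `p = 3`, `q ≠ 3`, `(q = 2 → 3 ∣ M')`, level neat at `q`
                        (`q ≡ 1 mod 3`, or a prime `r ≡ 2 mod 3`, `r ≠ q`, divides `M'`).
-/

set_option autoImplicit false
set_option synthInstance.maxHeartbeats 400000
set_option maxHeartbeats 1600000
set_option linter.unusedSectionVars false
set_option linter.style.haveILetI false

noncomputable section

namespace Fermat.Agent.S59.UnitQR.H464

open ModularCurve AlgebraicCurve HahnSeries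
open Fermat.Agent.A2 Fermat.Agent.A2.Alg Fermat.Agent.A2.T1.H669
open Fermat.Agent.S24 Fermat.Agent.A2.H708
open Fermat.Agent.Ribet.H884 Fermat.Agent.Ribet.Spec Fermat.Agent.Ribet.H944.Wall
open Fermat.Agent.Ribet.H158.WallQ
open Fermat.Agent.S36.H438 (castE)

section Gen

variable (A : ValuationSubring Kbar) (E : IntermediateField ℚ Kbar) (M q r : ℕ)
  [NeZero M] [NeZero q] [NeZero r]

/-- **UNIT input of TAME for the unit `v`**: at an UNRAMIFIED good level the pair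
`D = v`, `D' = q⁸ v⁻¹` is a `UnitPairGen` for every exponent `m` prime to `8`. -/
theorem unitPairGen_QR (hq : q.Prime) (hA : A.LiesOverPrime q) (hE : GoodField A E)
    (hunr : ∀ e : E, (e : Kbar) ∈ A.nonunits → (e : Kbar) * ((q : Kbar))⁻¹ ∈ A)
    (hr : r.Prime ∨ r = 1) (h : QRAdm q r) (hrM : r ∣ M)
    (m : ℕ) (hcop : Nat.Coprime 8 m) :
    Fermat.Agent.Ribet.H698.TameGen.UnitPairGen A E M q m (fun D =>
      ((D : Mod.FE E (M * q)) : LaurentSeries E) = castE E (vQRL q r)) := by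
  intro w hS V W hV hW p₁ p₂ hc₁ hc₂
  haveI : IsDiscreteValuationRing ↥(RE A E) := hE.dvr
  obtain ⟨e, D, D', he, hass, hmul, hD, hD', hexp⟩ :=
    exists_unitPair_cutQR hS hr h hrM hV hW p₁ p₂ hc₁ hc₂
  have he1 : e = 1 := Fermat.Agent.Ribet.H464.pow_eq_of_associated464 hS.unif hass
    (Fermat.Agent.Ribet.H912.associated_natCast_of_unramified hq hA hE.dvr hunr hS.unif)
  subst he1
  rw [mul_one] at hmul
  exact ⟨8, D, D', by norm_num, hcop, hmul, hD, hD', hexp⟩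

end Gen

section Eis

variable (q r : ℕ) [NeZero q] [NeZero r]

/-- The expansion of `v` over `ℚ̄`. -/
def vQRbar : LaurentSeries Kbar := coeffMap (Int.castRingHom Kbar) (vQRL q r)

/-- **UNIT-EIS for `v`**: `kronNorm ℓ v = c · v^(ℓ+1)` for every prime `ℓ ∤ q r`. -/
theorem isEisSeries_vQR : IsEisSeries (q * r).primeFactors (vQRbar q r) := by
  intro ℓ _ hℓ
  have hqr0 : q * r ≠ 0 := mul_ne_zero (NeZero.ne q) (NeZero.ne r)
  have hℓqr : ¬ (ℓ : ℕ) ∣ q * r := fun hd =>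
    hℓ (Nat.mem_primeFactors.mpr ⟨ℓ.2, hd, hqr0⟩)
  have hℓq : ¬ (ℓ : ℕ) ∣ q := fun hd => hℓqr (dvd_mul_of_dvd_left hd r)
  have hℓr : ¬ (ℓ : ℕ) ∣ r := fun hd => hℓqr (dvd_mul_of_dvd_right hd q)
  exact Fermat.Agent.S59.Unit3.H37.unitEis_shapeQR (L := Kbar) ℓ q r hℓq hℓr
    (-(expQR q r : ℤ)) 8 Fermat.Agent.S59.Unit3.H461.etaProd_mul_etaInvP (vQRL q r) rfl

end Eis

section CoreOut

variable (q M m r : ℕ) [NeZero M] [NeZero q] [NeZero (q * M)] [NeZero r]

/-- **CORE-OUT-q in the `U`-form** for the unit `v`: an `m`-torsion class of `J₀(qM)` fixed by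
inertia at `A` has slopes proportional to those of `v`, for every `m > 0` prime to `8`. -/
theorem slopePropQMU_vQR (hq : q.Prime) (hqM : ¬ q ∣ M)
    (haux : Fermat.Agent.S35.G.HasAux M q) (hm : 0 < m) (hcop : Nat.Coprime 8 m)
    (hr : r.Prime ∨ r = 1) (h : QRAdm q r) (hrM : r ∣ M)
    (A : ValuationSubring Kbar) (hA : A.LiesOverPrime q)
    (x : JZero (q * M)) (hx : m • x = 0)
    (hfix : ∀ σ ∈ A.inertiaSubgroupIn ℚ, σ • x = x) :
    SlopePropQMU m q M A (vQRbar q r) x := by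
  obtain ⟨hE, hunr⟩ := Fermat.Agent.S36.Eng.H189.unramified_inertiaField q hq A hA
  have hUnit := unitPairGen_QR A (IntermediateField.fixedField (A.inertiaSubgroupIn ℚ)) M q r
    hq hA hE hunr hr h hrM m hcop
  obtain ⟨f, G, Dg, D₁, n, a, b, hK, hQ, hDg, hDg0, hn, hnm, hrel, hNG⟩ :=
    Fermat.Agent.Ribet.H698.TameGen.tameCore_gen q M m hq hqM haux hm A hA _ hUnit x hx hfix
  refine ⟨f, Dg, G, n, a, b, hK, ?_, hDg0, hn.ne', hnm, hrel, hNG⟩
  rw [hDg, hQ]
  exact Fermat.Agent.S36.H438.coeffMap_castE _ (vQRL q r)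

end CoreOut

section Q4

variable (p q M' r : ℕ) [NeZero M'] [NeZero q] [NeZero (q * M')] [NeZero r]

/-- **(Q4) with the unit `v`**: any odd prime `p ≠ q`, level with the auxiliary prime for `q`,
`(q, r)` admissible, `r ∣ M'`. -/
theorem q4For_of_qrAdm (hp : p.Prime) (hp2 : p ≠ 2) (hq : q.Prime) (hqp : q ≠ p)
    (hqM : ¬ q ∣ M') (hAux : Fermat.Agent.S35.G.HasAux M' q)
    (hr : r.Prime ∨ r = 1) (h : QRAdm q r) (hrM : r ∣ M')
    (A : ValuationSubring Kbar) (hA : A.LiesOverPrime q) :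
    Q4For p q M' A (finPartQ p q M' A) := by
  have hcop : Nat.Coprime 8 p := by
    have h2 : Nat.Coprime 2 p :=
      (Nat.coprime_primes Nat.prime_two hp).mpr (fun e => hp2 e.symm)
    have : (8 : ℕ) = 2 ^ 3 := by norm_num
    rw [this]
    exact Nat.Coprime.pow_left 3 h2
  refine q4For_of_slopePropQMU p q M' hp hq hqp hqM hAux A hA ?_
  intro S a x hx _ hfix
  exact ⟨(q * r).primeFactors, vQRbar q r, isEisSeries_vQR q r,
    slopePropQMU_vQR q M' p r hq hqM hAux hp.pos hcop hr h hrM A hA x hx.1 hfix⟩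

end Q4

/-- **Cell T3-NEAT, target (Q4)**: `p = 3`, `q ≠ 3` prime, `q ∤ M'`, `(q = 2 → 3 ∣ M')`, and the
level is neat at `q`: `q ≡ 1 mod 3`, or a prime `r ≡ 2 mod 3`, `r ≠ q`, divides `M'`. -/
theorem q4For_three_neat (q M' : ℕ) [NeZero M'] [NeZero q] [NeZero (q * M')]
    (hq : q.Prime) (hq3 : q ≠ 3) (hqM : ¬ q ∣ M') (h2 : q = 2 → 3 ∣ M')
    (hneat : q % 3 = 1 ∨ ∃ r : ℕ, r.Prime ∧ r % 3 = 2 ∧ r ≠ q ∧ r ∣ M')
    (A : ValuationSubring Kbar) (hA : A.LiesOverPrime q) :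
    Q4For 3 q M' A (finPartQ 3 q M' A) := by
  have hAux : Fermat.Agent.S35.G.HasAux M' q := ⟨fun e => absurd e hq3, h2⟩
  have hq3' : ¬ 3 ∣ q := fun hd =>
    hq3 ((Nat.prime_dvd_prime_iff_eq Nat.prime_three hq).mp hd).symm
  rcases hneat with h1 | ⟨r, hr, hr2, -, hrM⟩
  · exact q4For_of_qrAdm 3 q M' 1 Nat.prime_three (by norm_num) hq hq3 hqM hAux (Or.inr rfl)
      (QRAdm.of_q h1 (by norm_num)) (one_dvd M') A hA
  · haveI : NeZero r := ⟨hr.ne_zero⟩
    exact q4For_of_qrAdm 3 q M' r Nat.prime_three (by norm_num) hq hq3 hqM hAux (Or.inl hr)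
      (QRAdm.of_r hq3' hr2) hrM A hA

end Fermat.Agent.S59.UnitQR.H464
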