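import Fermat.Agent.S59.UnitQR.H464.QRExp
import Fermat.Agent.S59.Unit3.H461.Unit3Cube

/-!
# S59 / cell B1, leaf UNIT-QR, part 3: the formal cube relation
(helper464; generic twin of helper461's `Unit3Cube`)

In `ℤ((t))`:  `vQRL ^ 3 = u'(t) * u'(t^r)` with `u' = unitL' q = Δ(t)/Δ(t^q)`, and
`vQRInvL ^ 3 = u(t) * u(t^r)` with `u = unitL ℤ q = Δ(t^q)/Δ(t)`.
-/

set_option autoImplicit false

noncomputable section

open ModularCurve HahnSeries

namespace Fermat.Agent.S59.UnitQR.H464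

open Fermat.Agent.S28 (deltaL deltaInvL unitL)
open Fermat.Agent.S28.H589 (unitL')
open Fermat.Agent.S59.Unit3.H461

/-- `qExpand` only depends on the value of the index. -/
theorem qExpand_congr464 {a b : ℕ} [NeZero a] [NeZero b] (h : a = b) (X : LaurentSeries ℤ) :
    qExpand ℤ a X = qExpand ℤ b X := by
  subst h
  rfl

section Cube

variable (q r : ℕ) [NeZero q] [NeZero r]

theorem qExpand_r_q (X : LaurentSeries ℤ) :
    qExpand ℤ r (qExpand ℤ q X) = qExpand ℤ (q * r) X := by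
  rw [qExpand_qExpand]
  exact qExpand_congr464 (Nat.mul_comm r q) X

theorem unitL'_eq464 :
    unitL' q = HahnSeries.single (1 - (q : ℤ)) (1 : ℤ) * e1L ^ 24 *
      qExpand ℤ q (e1InvL ^ 24) := by
  have hs : HahnSeries.single (1 : ℤ) (1 : ℤ) *
      HahnSeries.single (((q : ℕ) : ℤ) * (-1 : ℤ)) (1 : ℤ)
      = HahnSeries.single (1 - (q : ℤ)) (1 : ℤ) := by
    rw [HahnSeries.single_mul_single, mul_one]
    have e : (1 : ℤ) + ((q : ℕ) : ℤ) * (-1 : ℤ) = 1 - (q : ℤ) := by ring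
    rw [e]
  rw [unitL', deltaL_int, deltaInvL_int, map_mul, qExpand_single, ← hs]
  ring

theorem unitL_eq464 :
    unitL ℤ q = HahnSeries.single ((q : ℤ) - 1) (1 : ℤ) * e1InvL ^ 24 *
      qExpand ℤ q (e1L ^ 24) := by
  have hs : HahnSeries.single (((q : ℕ) : ℤ) * (1 : ℤ)) (1 : ℤ) *
      HahnSeries.single (-1 : ℤ) (1 : ℤ)
      = HahnSeries.single ((q : ℤ) - 1) (1 : ℤ) := by
    rw [HahnSeries.single_mul_single]
    have e : ((q : ℕ) : ℤ) * (1 : ℤ) + (-1 : ℤ) = (q : ℤ) - 1 := by ring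
    rw [e, mul_one]
  rw [unitL, deltaL_int, deltaInvL_int, map_mul, qExpand_single, ← hs]
  ring

/-- The exponent identity over `ℤ`. -/
theorem expQR_int {q r : ℕ} (hq : 0 < q) (h : QRAdm q r) :
    (3 : ℤ) * (expQR q r : ℤ) = ((q : ℤ) - 1) + (r : ℤ) * ((q : ℤ) - 1) := by
  have h1 := three_mul_expQR hq h
  have h2 : ((3 * expQR q r + r + 1 : ℕ) : ℤ) = ((q * r + q : ℕ) : ℤ) := by rw [h1]
  push_cast at h2
  linear_combination h2

/-- **The cube relation**: `v³ = u'(t) · u'(t^r)`, `u' = Δ(t)/Δ(t^q)`. -/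
theorem vQRL_pow_three (h : QRAdm q r) :
    vQRL q r ^ 3 = unitL' q * qExpand ℤ r (unitL' q) := by
  have hs3 : (HahnSeries.single (-(expQR q r : ℤ)) (1 : ℤ) : LaurentSeries ℤ) ^ 3
      = HahnSeries.single (1 - (q : ℤ)) (1 : ℤ) *
        HahnSeries.single (((r : ℕ) : ℤ) * (1 - (q : ℤ))) (1 : ℤ) := by
    rw [single_pow_three, HahnSeries.single_mul_single, mul_one]
    have e : (3 : ℤ) * -(expQR q r : ℤ) = (1 - (q : ℤ)) + ((r : ℕ) : ℤ) * (1 - (q : ℤ)) := by
      have := expQR_int (NeZero.pos q) h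
      linear_combination (-1 : ℤ) * this
    rw [e]
  rw [unitL'_eq464, map_mul, map_mul, qExpand_single, qExpand_r_q, vQRL, e8L_eq, e8InvL_eq]
  simp only [mul_pow, map_pow, ← pow_mul, hs3]
  ring

/-- **The cube relation for the inverse**: `v⁻³ = u(t) · u(t^r)`, `u = Δ(t^q)/Δ(t)`. -/
theorem vQRInvL_pow_three (h : QRAdm q r) :
    vQRInvL q r ^ 3 = unitL ℤ q * qExpand ℤ r (unitL ℤ q) := by
  have hs3 : (HahnSeries.single ((expQR q r : ℤ)) (1 : ℤ) : LaurentSeries ℤ) ^ 3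
      = HahnSeries.single ((q : ℤ) - 1) (1 : ℤ) *
        HahnSeries.single (((r : ℕ) : ℤ) * ((q : ℤ) - 1)) (1 : ℤ) := by
    rw [single_pow_three, HahnSeries.single_mul_single, mul_one]
    have e : (3 : ℤ) * (expQR q r : ℤ) = ((q : ℤ) - 1) + ((r : ℕ) : ℤ) * ((q : ℤ) - 1) := by
      have := expQR_int (NeZero.pos q) h
      linear_combination this
    rw [e]
  rw [unitL_eq464, map_mul, map_mul, qExpand_single, qExpand_r_q, vQRInvL, e8L_eq, e8InvL_eq]
  simp only [mul_pow, map_pow, ← pow_mul, hs3]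
  ring

end Cube

end Fermat.Agent.S59.UnitQR.H464
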