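import Fermat.Agent.S59.UnitQR.H464.QRCube
import Fermat.Agent.S59.Unit3.H461.Unit3Elt

/-!
# S59 / cell B1, leaf UNIT-QR, part 4: the elements `v`, `v⁻¹` of `F_{N,E}`, `q r ∣ N`
(helper464; generic twin of helper461's `Unit3Elt`)

* `vQE E q r h N hN : FE E N`, `vQE'` : the elements with `t`-expansions `vQRL q r`, `vQRInvL q r`;
* `uRE`, `uRE'` : the elements with expansions `u(t^r)`, `u'(t^r)`, `u = Δ(t^q)/Δ(t)`;
* `vQE_pow_three : v³ = u' · u'(t^r)`, `vQE'_pow_three : v⁻³ = u · u(t^r)`;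
* `dQE = q⁸ v⁻¹`, `dQE_mul_vQE : D · D' = q⁸`;
* `vQE_unit_vinf` : `v` is a unit of the Gauss valuation ring `V∞`.
-/

set_option autoImplicit false
set_option synthInstance.maxHeartbeats 400000
set_option maxHeartbeats 1600000

noncomputable section

namespace Fermat.Agent.S59.UnitQR.H464

open ModularCurve HahnSeries Polynomial
open Fermat.Agent.A2.Mod Fermat.Agent.S28
open Fermat.Agent.S36.H438 (castE uE uE' dE)
open Fermat.Agent.S59.Unit3.H461 (embC)

/-! ## 1. The elements -/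

section Elements

variable (E : IntermediateField ℚ Qb) (q r : ℕ) [NeZero q] [NeZero r] (h : QRAdm q r)

include h in
theorem castE_vQRL_mem_level : castE E (vQRL q r) ∈ FE E (q * r) :=
  vQRL_mem_of_embedding q r h (embC E)

include h in
theorem castE_vQRL_mem (N : ℕ) [NeZero N] (hN : q * r ∣ N) : castE E (vQRL q r) ∈ FE E N :=
  Fermat.Agent.S36.H438.laurentBaseChange_mono_h438 E (full_degeneracy_le hN)
    (castE_vQRL_mem_level E q r h)

theorem castE_vQRL_mul_inv : castE E (vQRL q r) * castE E (vQRInvL q r) = 1 := by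
  rw [← map_mul, vQRL_mul_vQRInvL, map_one]

theorem castE_vQRInvL_eq_inv : castE E (vQRInvL q r) = (castE E (vQRL q r))⁻¹ :=
  eq_inv_of_mul_eq_one_right (castE_vQRL_mul_inv E q r)

include h in
theorem castE_vQRInvL_mem (N : ℕ) [NeZero N] (hN : q * r ∣ N) :
    castE E (vQRInvL q r) ∈ FE E N := by
  rw [castE_vQRInvL_eq_inv]
  exact inv_mem (castE_vQRL_mem E q r h N hN)

/-- `X(t) ∈ F_q ⟹ X(t^r) ∈ F_N`, `q r ∣ N`. -/
theorem castE_qExpand_r_mem {X : LaurentSeries ℤ} (hX : castE E X ∈ FE E q)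
    (N : ℕ) [NeZero N] (hN : q * r ∣ N) : castE E (qExpand ℤ r X) ∈ FE E N := by
  have h1 : castE E (qExpand ℤ r X)
      = ((heckeBetaBar E q r ⟨castE E X, hX⟩ : FE E (q * r)) : LaurentSeries E) := by
    rw [coe_heckeBetaBar]
    exact coeffMap_qExpand _ r X
  rw [h1]
  exact Fermat.Agent.S36.H438.laurentBaseChange_mono_h438 E (full_degeneracy_le hN)
    (SetLike.coe_mem _)

variable (N : ℕ) [NeZero N] (hN : q * r ∣ N)

/-- **The unit of level `q r`** `v = (η(τ)η(rτ)/(η(qτ)η(qrτ)))⁸` as an element of `F_{N,E}`. -/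
def vQE : FE E N := ⟨castE E (vQRL q r), castE_vQRL_mem E q r h N hN⟩

/-- Its inverse. -/
def vQE' : FE E N := ⟨castE E (vQRInvL q r), castE_vQRInvL_mem E q r h N hN⟩

/-- `u(t^r)`, `u = Δ(t^q)/Δ(t)`. -/
def uRE : FE E N :=
  ⟨castE E (qExpand ℤ r (unitL ℤ q)),
    castE_qExpand_r_mem E q r (Fermat.Agent.S36.H438.castE_unitL_mem_level E q) N hN⟩

/-- `u'(t^r)`, `u' = Δ(t)/Δ(t^q)`. -/
def uRE' : FE E N :=
  ⟨castE E (qExpand ℤ r (H589.unitL' q)),
    castE_qExpand_r_mem E q r (Fermat.Agent.S36.H438.castE_unitL'_mem E q q dvd_rfl) N hN⟩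

@[simp] theorem coe_vQE :
    ((vQE E q r h N hN : FE E N) : LaurentSeries E) = castE E (vQRL q r) := rfl

@[simp] theorem coe_vQE' :
    ((vQE' E q r h N hN : FE E N) : LaurentSeries E) = castE E (vQRInvL q r) := rfl

@[simp] theorem coe_uRE :
    ((uRE E q r N hN : FE E N) : LaurentSeries E) = castE E (qExpand ℤ r (unitL ℤ q)) := rfl

@[simp] theorem coe_uRE' :
    ((uRE' E q r N hN : FE E N) : LaurentSeries E)
      = castE E (qExpand ℤ r (H589.unitL' q)) := rfl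

theorem vQE_mul_vQE' : vQE E q r h N hN * vQE' E q r h N hN = 1 :=
  Subtype.ext (castE_vQRL_mul_inv E q r)

theorem vQE_ne_zero : vQE E q r h N hN ≠ 0 := fun h0 => by
  have := vQE_mul_vQE' E q r h N hN
  rw [h0, zero_mul] at this
  exact zero_ne_one this

theorem vQE'_ne_zero : vQE' E q r h N hN ≠ 0 := fun h0 => by
  have := vQE_mul_vQE' E q r h N hN
  rw [h0, mul_zero] at this
  exact zero_ne_one this

theorem vQE'_eq_inv : vQE' E q r h N hN = (vQE E q r h N hN)⁻¹ :=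
  eq_inv_of_mul_eq_one_right (vQE_mul_vQE' E q r h N hN)

theorem vQE_inv : (vQE E q r h N hN)⁻¹ = vQE' E q r h N hN := (vQE'_eq_inv E q r h N hN).symm

theorem vQE'_inv : (vQE' E q r h N hN)⁻¹ = vQE E q r h N hN := by
  rw [vQE'_eq_inv, inv_inv]

theorem uRE_mul_uRE' : uRE E q r N hN * uRE' E q r N hN = 1 := by
  apply Subtype.ext
  show castE E (qExpand ℤ r (unitL ℤ q)) * castE E (qExpand ℤ r (H589.unitL' q)) = 1
  rw [← map_mul, ← map_mul, Fermat.Agent.S36.H438.unitL_mul_unitL', map_one, map_one]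

include hN in
omit [NeZero q] [NeZero r] [NeZero N] in
theorem q_dvd_of_mul_dvd : q ∣ N := Dvd.dvd.trans (dvd_mul_right q r) hN

include hN in
omit [NeZero q] [NeZero r] [NeZero N] in
theorem r_dvd_of_mul_dvd : r ∣ N := Dvd.dvd.trans (dvd_mul_left r q) hN

/-- **The cube relation** in `F_{N,E}`: `v³ = u' · u'(t^r)`. -/
theorem vQE_pow_three :
    vQE E q r h N hN ^ 3 = uE' E N q (q_dvd_of_mul_dvd q r N hN) * uRE' E q r N hN := by
  apply Subtype.ext
  show (castE E (vQRL q r)) ^ 3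
    = castE E (H589.unitL' q) * castE E (qExpand ℤ r (H589.unitL' q))
  rw [← map_pow, vQRL_pow_three q r h, map_mul]

/-- **The cube relation** for the inverse: `v⁻³ = u · u(t^r)`. -/
theorem vQE'_pow_three :
    vQE' E q r h N hN ^ 3 = uE E N q (q_dvd_of_mul_dvd q r N hN) * uRE E q r N hN := by
  apply Subtype.ext
  show (castE E (vQRInvL q r)) ^ 3 = castE E (unitL ℤ q) * castE E (qExpand ℤ r (unitL ℤ q))
  rw [← map_pow, vQRInvL_pow_three q r h, map_mul]

/-- `D = q⁸ v⁻¹`. -/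
def dQE : FE E N := algebraMap E (FE E N) ((q : E) ^ 8) * vQE' E q r h N hN

theorem coe_dQE :
    ((dQE E q r h N hN : FE E N) : LaurentSeries E)
      = castE E ((q : LaurentSeries ℤ) ^ 8 * vQRInvL q r) := by
  show algebraMap E (LaurentSeries E) ((q : E) ^ 8) * castE E (vQRInvL q r) = _
  rw [map_mul, map_pow, map_pow, map_natCast, map_natCast]

/-- **The unit pair**: `D · D' = q⁸`. -/
theorem dQE_mul_vQE :
    dQE E q r h N hN * vQE E q r h N hN = algebraMap E (FE E N) ((q : E) ^ 8) := by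
  rw [dQE, mul_assoc, mul_comm (vQE' E q r h N hN), vQE_mul_vQE', mul_one]

omit [NeZero r] in
theorem q_pow_ne_zero (n : ℕ) : ((q : E) ^ n) ≠ 0 :=
  pow_ne_zero _ (Nat.cast_ne_zero.mpr (NeZero.ne q))

theorem dQE_ne_zero : dQE E q r h N hN ≠ 0 :=
  mul_ne_zero ((map_ne_zero_iff _ (algebraMap E (FE E N)).injective).mpr (q_pow_ne_zero E q 8))
    (vQE'_ne_zero E q r h N hN)

theorem dQE_inv :
    (dQE E q r h N hN)⁻¹ = algebraMap E (FE E N) ((q : E) ^ 8)⁻¹ * vQE E q r h N hN := by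
  rw [dQE, mul_inv, vQE'_inv, map_inv₀]

/-- `D³ = (q¹² u) · (q¹² u(t^r))`. -/
theorem dQE_pow_three :
    dQE E q r h N hN ^ 3 = dE E N q (q_dvd_of_mul_dvd q r N hN) *
      (algebraMap E (FE E N) ((q : E) ^ 12) * uRE E q r N hN) := by
  rw [dQE, mul_pow, vQE'_pow_three, dE, ← map_pow]
  have h' : ((q : E) ^ 8) ^ 3 = (q : E) ^ 12 * (q : E) ^ 12 := by ring
  rw [h', map_mul]
  ring

end Elements

/-! ## 2. `v` is a unit of the Gauss valuation ring `V∞` -/

section Gauss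

variable (P : ValuationSubring Qb) (E : IntermediateField ℚ Qb) (q r : ℕ) [NeZero q] [NeZero r]
  (h : QRAdm q r) (N : ℕ) [NeZero N] (hN : q * r ∣ N)

/-- **UNIT-QR (1)**: `D' = v` is a unit of `V∞`. -/
theorem vQE_unit_vinf {V : ValuationSubring (FE E N)} (hV : IsVinf P E N V) :
    vQE E q r h N hN ∈ V ∧ (vQE E q r h N hN)⁻¹ ∈ V := by
  refine ⟨Fermat.Agent.S36.H438.mem_vinf_of_coe_eq_castE P E hV (coe_vQE E q r h N hN), ?_⟩
  rw [vQE_inv]
  exact Fermat.Agent.S36.H438.mem_vinf_of_coe_eq_castE P E hV (coe_vQE' E q r h N hN)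

end Gauss

end Fermat.Agent.S59.UnitQR.H464
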