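import Fermat.Agent.S59.UnitQR.H464.QRFun
import Fermat.Agent.S59.Unit3.H461.Unit3Exp

/-!
# S59 / cell B1, leaf UNIT-QR, part 2: the `q`-expansion of `v` and the function field
(helper464; generic twin of helper461's `Unit3Exp`)

`vQRL q r = t^(-m) ∏ₙ ((1 - tⁿ)(1 - t^(rn)) / ((1 - t^(qn))(1 - t^(qrn))))⁸ ∈ ℤ((t))`,
`m = (q - 1)(r + 1)/3`, is the `q`-expansion of `vQR q r`; hence it lies in the function field
of `X₀(q r)` over `ℂ`, and over every field `K ⊆ ℂ`.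
-/

set_option autoImplicit false

noncomputable section

open Complex ModularForm CongruenceSubgroup ModularCurve HahnSeries
open UpperHalfPlane hiding I
open scoped MatrixGroups Real Manifold

namespace Fermat.Agent.S59.UnitQR.H464

open Fermat.Agent.S28.H589 (scaleH scaleH_coe unitFun unitFun' hasTExp_comp_scaleH iotaC)
open Fermat.Agent.S28.H565 (HasTExp HasPExp eulerFun etaProdC etaInvC hasPExp_eulerFun
  hasPExp_eulerFun_pow_inv eulerFun_ne_zero etaProdC_pow_mul_etaInvC)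
open Fermat.Agent.S24.H648 (goodRing ExpGrowth)
open Fermat.Agent.S59.Unit3.H461

local notation "𝕢" => Function.Periodic.qParam

/-! ## The exponent -/

/-- The order of the pole of `v` at `∞`: `m = (q - 1)(r + 1)/3`. -/
def expQR (q r : ℕ) : ℕ := (q - 1) * (r + 1) / 3

theorem three_mul_expQR {q r : ℕ} (hq : 0 < q) (h : QRAdm q r) :
    3 * expQR q r + r + 1 = q * r + q := by
  have hdvd : 3 ∣ (q - 1) * (r + 1) := by
    rw [← ZMod.natCast_eq_zero_iff]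
    have h1 : ((q - 1 : ℕ) : ZMod 3) = (q : ZMod 3) - 1 := by
      rw [Nat.cast_sub hq]
      simp
    rw [Nat.cast_mul, h1, Nat.cast_add, Nat.cast_one]
    exact h.rel
  have h2 : 3 * expQR q r = (q - 1) * (r + 1) := Nat.mul_div_cancel' hdvd
  obtain ⟨k, rfl⟩ : ∃ k, q = k + 1 := ⟨q - 1, by omega⟩
  rw [h2]
  simp only [Nat.add_sub_cancel]
  ring

/-! ## The formal series -/

section Series

variable (q r : ℕ) [NeZero q] [NeZero r]

/-- **The unit of level `q r`**: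
`v = t^(-m) ∏ₙ ((1 - tⁿ)(1 - t^(rn)) / ((1 - t^(qn))(1 - t^(qrn))))⁸`. -/
def vQRL : LaurentSeries ℤ :=
  HahnSeries.single (-(expQR q r : ℤ)) (1 : ℤ) * e8L * qExpand ℤ r e8L * qExpand ℤ q e8InvL *
    qExpand ℤ (q * r) e8InvL

/-- Its inverse. -/
def vQRInvL : LaurentSeries ℤ :=
  HahnSeries.single ((expQR q r : ℤ)) (1 : ℤ) * e8InvL * qExpand ℤ r e8InvL * qExpand ℤ q e8L *
    qExpand ℤ (q * r) e8L

theorem vQRL_mul_vQRInvL : vQRL q r * vQRInvL q r = 1 := by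
  have h1 : HahnSeries.single (-(expQR q r : ℤ)) (1 : ℤ) *
      HahnSeries.single ((expQR q r : ℤ)) (1 : ℤ) = 1 := by
    rw [HahnSeries.single_mul_single]
    simp
  have h2 : qExpand ℤ r e8L * qExpand ℤ r e8InvL = 1 := by
    rw [← map_mul, e8L_mul_e8InvL, map_one]
  have h3 : qExpand ℤ q e8InvL * qExpand ℤ q e8L = 1 := by
    rw [← map_mul, mul_comm e8InvL e8L, e8L_mul_e8InvL, map_one]
  have h6 : qExpand ℤ (q * r) e8InvL * qExpand ℤ (q * r) e8L = 1 := by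
    rw [← map_mul, mul_comm e8InvL e8L, e8L_mul_e8InvL, map_one]
  rw [vQRL, vQRInvL]
  calc HahnSeries.single (-(expQR q r : ℤ)) (1 : ℤ) * e8L * qExpand ℤ r e8L *
        qExpand ℤ q e8InvL * qExpand ℤ (q * r) e8InvL *
        (HahnSeries.single ((expQR q r : ℤ)) (1 : ℤ) * e8InvL * qExpand ℤ r e8InvL *
          qExpand ℤ q e8L * qExpand ℤ (q * r) e8L)
      = (HahnSeries.single (-(expQR q r : ℤ)) (1 : ℤ) *
            HahnSeries.single ((expQR q r : ℤ)) (1 : ℤ)) *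
          (e8L * e8InvL) * (qExpand ℤ r e8L * qExpand ℤ r e8InvL) *
          (qExpand ℤ q e8InvL * qExpand ℤ q e8L) *
          (qExpand ℤ (q * r) e8InvL * qExpand ℤ (q * r) e8L) := by
        ring
    _ = 1 := by rw [h1, e8L_mul_e8InvL, h2, h3, h6]; simp

end Series

/-! ## The analytic expansion -/

section Analytic

variable (q r : ℕ) [NeZero q] [NeZero r]

theorem inv_pow_eight {E : ℂ} (hE : E ≠ 0) : ((E ^ 24)⁻¹ * E ^ 23) ^ 8 = (E ^ 8)⁻¹ := by
  field_simp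

/-- `v` in terms of the Euler function. -/
theorem vQR_eq (h : QRAdm q r) (τ : ℍ) :
    vQR q r (NeZero.pos q) (NeZero.pos r) τ =
      𝕢 1 (τ : ℂ) ^ (-(expQR q r : ℤ)) * eulerT τ ^ 8 *
      eulerT (scaleH r (NeZero.pos r) τ) ^ 8 *
      ((eulerT (scaleH q (NeZero.pos q) τ) ^ 24)⁻¹ *
        eulerT (scaleH q (NeZero.pos q) τ) ^ 23) ^ 8 *
      ((eulerT (scaleH (q * r) (Nat.mul_pos (NeZero.pos q) (NeZero.pos r)) τ) ^ 24)⁻¹ *
        eulerT (scaleH (q * r) (Nat.mul_pos (NeZero.pos q) (NeZero.pos r)) τ) ^ 23) ^ 8 := by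
  have hx : cexp (2 * π * I * (τ : ℂ) / 3) ≠ 0 := Complex.exp_ne_zero _
  have h3 := eulerT_ne_zero (scaleH q (NeZero.pos q) τ)
  have h6 := eulerT_ne_zero (scaleH (q * r) (Nat.mul_pos (NeZero.pos q) (NeZero.pos r)) τ)
  have hm := three_mul_expQR (NeZero.pos q) h
  rw [inv_pow_eight h3, inv_pow_eight h6, vQR, eta8_eq, eta8_eq, eta8_eq, eta8_eq, cexp_scale,
    cexp_scale, cexp_scale, qParam_eq_cube, zpow_neg, zpow_natCast]
  generalize cexp (2 * π * I * (τ : ℂ) / 3) = x at hx ⊢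
  generalize eulerT (scaleH q (NeZero.pos q) τ) = Eq at h3 ⊢
  generalize eulerT (scaleH (q * r) (Nat.mul_pos (NeZero.pos q) (NeZero.pos r)) τ) = Eqr at h6 ⊢
  generalize eulerT (scaleH r (NeZero.pos r) τ) = Er
  generalize eulerT τ = E1
  have key : x * x ^ r * (x ^ 3) ^ expQR q r = x ^ q * x ^ (q * r) := by
    rw [← _root_.pow_mul, ← _root_.pow_succ', ← _root_.pow_add, ← _root_.pow_add]
    congr 1
    omega
  have hxq : x ^ q ≠ 0 := pow_ne_zero _ hx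
  have hxqr : x ^ (q * r) ≠ 0 := pow_ne_zero _ hx
  have hx3 : (x ^ 3) ^ expQR q r ≠ 0 := pow_ne_zero _ (pow_ne_zero _ hx)
  have hE8 : Eq ^ 8 ≠ 0 := pow_ne_zero _ h3
  have hE8' : Eqr ^ 8 ≠ 0 := pow_ne_zero _ h6
  rw [mul_inv, mul_inv]
  have e1 : (x ^ q)⁻¹ * (x ^ (q * r))⁻¹ * (x * x ^ r) = ((x ^ 3) ^ expQR q r)⁻¹ := by
    apply eq_inv_of_mul_eq_one_left
    calc (x ^ q)⁻¹ * (x ^ (q * r))⁻¹ * (x * x ^ r) * (x ^ 3) ^ expQR q r
        = (x ^ q)⁻¹ * (x ^ (q * r))⁻¹ * (x * x ^ r * (x ^ 3) ^ expQR q r) := by ring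
      _ = 1 := by
        rw [key, ← mul_inv]
        exact inv_mul_cancel₀ (mul_ne_zero hxq hxqr)
  calc x * E1 ^ 8 * (x ^ r * Er ^ 8) * ((x ^ q)⁻¹ * (Eq ^ 8)⁻¹) * ((x ^ (q * r))⁻¹ * (Eqr ^ 8)⁻¹)
      = ((x ^ q)⁻¹ * (x ^ (q * r))⁻¹ * (x * x ^ r)) * E1 ^ 8 * Er ^ 8 * (Eq ^ 8)⁻¹ *
          (Eqr ^ 8)⁻¹ := by ring
    _ = ((x ^ 3) ^ expQR q r)⁻¹ * E1 ^ 8 * Er ^ 8 * (Eq ^ 8)⁻¹ * (Eqr ^ 8)⁻¹ := by rw [e1]

/-- The series of `v` over `ℂ`, in product form. -/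
def vQRC : LaurentSeries ℂ :=
  HahnSeries.single (-(expQR q r : ℤ)) (1 : ℂ) * HahnSeries.ofPowerSeries ℤ ℂ (etaProdC ^ 8) *
    qExpand ℂ r (HahnSeries.ofPowerSeries ℤ ℂ (etaProdC ^ 8)) *
    qExpand ℂ q (HahnSeries.ofPowerSeries ℤ ℂ (etaInvPC ^ 8)) *
    qExpand ℂ (q * r) (HahnSeries.ofPowerSeries ℤ ℂ (etaInvPC ^ 8))

/-- **The `q`-expansion of `v`.** -/
theorem hasTExp_vQR (h : QRAdm q r) :
    HasTExp 1 (vQR q r (NeZero.pos q) (NeZero.pos r)) (vQRC q r) := by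
  have hs := HasTExp.single (h := 1) (-(expQR q r : ℤ))
  have h1 := hasTExp_eulerT_pow
  have h2 := hasTExp_comp_scaleH r (NeZero.pos r) hasTExp_eulerT_pow
  have h3 := hasTExp_comp_scaleH q (NeZero.pos q) hasTExp_eulerT_inv_pow
  have h6 := hasTExp_comp_scaleH (q * r) (Nat.mul_pos (NeZero.pos q) (NeZero.pos r))
    hasTExp_eulerT_inv_pow
  have h' := (((hs.mul h1).mul h2).mul h3).mul h6
  rw [vQRC]
  refine h'.congr fun τ => ?_
  rw [vQR_eq q r h]
  rfl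

theorem iotaC_vQRL : iotaC (vQRL q r) = vQRC q r := by
  have hE : PowerSeries.map (Int.castRingHom ℂ) etaInvP = etaInvPC := by
    rw [etaInvP, etaInvPC, map_mul, map_pow]
    rfl
  have h8 : iotaC e8L = HahnSeries.ofPowerSeries ℤ ℂ (etaProdC ^ 8) := by
    rw [e8L, iotaC, coeffMap_ofPowerSeries, map_pow]
    rfl
  have h8i : iotaC e8InvL = HahnSeries.ofPowerSeries ℤ ℂ (etaInvPC ^ 8) := by
    rw [e8InvL, iotaC, coeffMap_ofPowerSeries, map_pow, hE]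
  have hq : ∀ (d : ℕ) [NeZero d] (x : LaurentSeries ℤ),
      iotaC (qExpand ℤ d x) = qExpand ℂ d (iotaC x) := by
    intro d _ x
    rw [iotaC, coeffMap_qExpand]
  rw [vQRL, vQRC, map_mul, map_mul, map_mul, map_mul, hq, hq, hq, h8, h8i]
  congr 4
  rw [iotaC, coeffMap_single]
  simp

/-- **`v` lies in the function field of `X₀(q r)` over `ℂ`.** -/
theorem iotaC_vQRL_mem (h : QRAdm q r) :
    iotaC (vQRL q r) ∈ laurentBaseChange ℂ (modularFunctionFieldFull (q * r)) := by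
  rw [iotaC_vQRL]
  refine Fermat.Agent.S29.H882.mem_FC_of_hasQExp
    (vQR_mem_goodRing (NeZero.pos q) (NeZero.pos r) h) ?_
  refine Fermat.Agent.S24.H708.HasQExp.of_hasSum
    (mdifferentiable_vQR q r (NeZero.pos q) (NeZero.pos r)) ?_
  intro τ
  have h' := hasTExp_vQR q r h τ
  simpa [Fermat.Agent.S24.H708.qh] using h'

/-- **`v` lies in the function field of `X₀(q r)` over every field with an embedding into
`ℂ`.** -/
theorem vQRL_mem_of_embedding (h : QRAdm q r) {K : Type*} [Field K] [Algebra ℚ K]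
    (ι : K →+* ℂ) :
    coeffMap (Int.castRingHom K) (vQRL q r) ∈
      laurentBaseChange K (modularFunctionFieldFull (q * r)) := by
  refine Fermat.Agent.S29.H882.mem_laurentBaseChange_of_coeffMap_mem ι
    (modularFunctionFieldFull (q * r)) ?_
  rw [coeffMap_coeffMap]
  have e : ι.comp (Int.castRingHom K) = Int.castRingHom ℂ := RingHom.ext_int _ _
  rw [coeffMap_congr e]
  exact iotaC_vQRL_mem q r h

end Analytic

end Fermat.Agent.S59.UnitQR.H464
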