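import Fermat.Agent.S59.Unit3.H461.Unit3Fun

/-!
# S59 / cell B1 (WALL-q at `p = 3`), leaf UNIT-QR, part 1: the function
`v = (η(τ) η(rτ) / (η(qτ) η(qrτ)))⁸`  (helper464; generic twin of helper461's `Unit3Fun`)

For `q, r ≥ 1` prime to `3` with `3 ∣ (q - 1)(r + 1)` (i.e. `q ≡ 1 mod 3` or `r ≡ 2 mod 3`),
`vQR q r τ = η⁸(τ) η⁸(rτ) / (η⁸(qτ) η⁸(qrτ))` is a good function of level `q r`
(`S24.H648.goodRing (q * r)`): holomorphic, `Γ₀(q r)`-invariant, all translates of exponential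
growth.  Its cube is `Δ(τ) Δ(rτ) / (Δ(qτ) Δ(qrτ))`.  Its slope at `q` is `8`, prime to `3`.
-/

set_option autoImplicit false

noncomputable section

open Complex ModularForm CongruenceSubgroup
open UpperHalfPlane hiding I
open scoped MatrixGroups Real Manifold

namespace Fermat.Agent.S59.UnitQR.H464

open Fermat.Agent.S28.H589 (scaleH scaleH_coe unitFun unitFun')
open Fermat.Agent.S24.H648 (goodRing ExpGrowth)
open Fermat.Agent.S59.Unit3.H461

local notation "Δ" => ModularForm.discriminant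

/-- The pair `(q, r)` is admissible for the coefficient prime `3`: both are prime to `3` and
`3 ∣ (q - 1)(r + 1)`. -/
structure QRAdm (q r : ℕ) : Prop where
  q_ne : (q : ZMod 3) ≠ 0
  r_ne : (r : ZMod 3) ≠ 0
  rel : ((q : ZMod 3) - 1) * ((r : ZMod 3) + 1) = 0

theorem QRAdm.of_r {q r : ℕ} (hq : ¬ 3 ∣ q) (hr : r % 3 = 2) : QRAdm q r := by
  refine ⟨?_, ?_, ?_⟩
  · rwa [Ne, ZMod.natCast_eq_zero_iff]
  · rw [Ne, ZMod.natCast_eq_zero_iff]
    omega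
  · have h : ((r : ZMod 3) + 1) = 0 := by
      have h1 : ((r + 1 : ℕ) : ZMod 3) = 0 := by
        rw [ZMod.natCast_eq_zero_iff]
        omega
      exact_mod_cast h1
    rw [h, mul_zero]

theorem QRAdm.of_q {q r : ℕ} (hq : q % 3 = 1) (hr : ¬ 3 ∣ r) : QRAdm q r := by
  refine ⟨?_, ?_, ?_⟩
  · rw [Ne, ZMod.natCast_eq_zero_iff]
    omega
  · rwa [Ne, ZMod.natCast_eq_zero_iff]
  · have h : ((q : ZMod 3) - 1) = 0 := by
      have h1 : ((q : ℕ) : ZMod 3) = ((1 : ℕ) : ZMod 3) := by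
        rw [ZMod.natCast_eq_natCast_iff]
        exact hq
      rw [h1]
      simp
    rw [h, zero_mul]

/-! ## The function `v` -/

/-- `v(τ) = η⁸(τ) η⁸(rτ) / (η⁸(qτ) η⁸(qrτ))`. -/
def vQR (q r : ℕ) (hq : 0 < q) (hr : 0 < r) (τ : ℍ) : ℂ :=
  eta8 τ * eta8 (scaleH r hr τ) * (eta8 (scaleH q hq τ))⁻¹ *
    (eta8 (scaleH (q * r) (Nat.mul_pos hq hr) τ))⁻¹

theorem vQR_ne_zero (q r : ℕ) (hq : 0 < q) (hr : 0 < r) (τ : ℍ) : vQR q r hq hr τ ≠ 0 := by
  unfold vQR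
  exact mul_ne_zero (mul_ne_zero (mul_ne_zero (eta8_ne_zero _) (eta8_ne_zero _))
    (inv_ne_zero (eta8_ne_zero _))) (inv_ne_zero (eta8_ne_zero _))

/-- The cancellation of the four multipliers. -/
theorem chiF_cancel_qr : ∀ a b c d Q R : ZMod 3, Q ≠ 0 → R ≠ 0 → (Q - 1) * (R + 1) = 0 →
    chiF a b (Q * R * c) d + chiF a (b * R) (Q * c) d =
      chiF a (b * Q) (R * c) d + chiF a (b * (Q * R)) c d := by decide

theorem mem_Gamma0_mul {q r : ℕ} {γ : SL(2, ℤ)} (hγ : γ ∈ Gamma0 (q * r)) :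
    ∃ c : ℤ, γ 1 0 = (q : ℤ) * (r : ℤ) * c := by
  rw [Gamma0_mem] at hγ
  obtain ⟨c, hc⟩ := (ZMod.intCast_zmod_eq_zero_iff_dvd _ _).mp hγ
  exact ⟨c, by rw [hc]; push_cast; ring⟩

/-- **`v` is `Γ₀(q r)`-invariant.** -/
theorem vQR_smul {q r : ℕ} (hq : 0 < q) (hr : 0 < r) (h : QRAdm q r)
    (γ : SL(2, ℤ)) (hγ : γ ∈ Gamma0 (q * r)) (τ : ℍ) :
    vQR q r hq hr (γ • τ) = vQR q r hq hr τ := by
  obtain ⟨c, hc⟩ := mem_Gamma0_mul hγ
  have hkr : γ 1 0 = ((r : ℕ) : ℤ) * ((q : ℤ) * c) := by rw [hc]; ring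
  have hkq : γ 1 0 = ((q : ℕ) : ℤ) * ((r : ℤ) * c) := by rw [hc]; ring
  have hkqr : γ 1 0 = ((q * r : ℕ) : ℤ) * c := by rw [hc]; push_cast; ring
  have e1 := eta8_smul γ τ
  have er := eta8_scaleH_smul γ r hr ((q : ℤ) * c) hkr τ
  have eq := eta8_scaleH_smul γ q hq ((r : ℤ) * c) hkq τ
  have eqr := eta8_scaleH_smul γ (q * r) (Nat.mul_pos hq hr) c hkqr τ
  have hJ : autJ γ τ ≠ 0 := autJ_ne_zero γ τ
  have hχ : chi0 γ + chi0 (gammaD γ r ((q : ℤ) * c) hkr) =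
      chi0 (gammaD γ q ((r : ℤ) * c) hkq) + chi0 (gammaD γ (q * r) c hkqr) := by
    rw [chi0_gammaD, chi0_gammaD, chi0_gammaD, chi0]
    have h' := chiF_cancel_qr ((γ 0 0 : ℤ) : ZMod 3) ((γ 0 1 : ℤ) : ZMod 3) ((c : ℤ) : ZMod 3)
      ((γ 1 1 : ℤ) : ZMod 3) (q : ZMod 3) (r : ZMod 3) h.q_ne h.r_ne h.rel
    rw [hc]
    push_cast
    exact h'
  have hω : omegaPow (chi0 γ) * omegaPow (chi0 (gammaD γ r ((q : ℤ) * c) hkr)) =
      omegaPow (chi0 (gammaD γ q ((r : ℤ) * c) hkq)) *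
        omegaPow (chi0 (gammaD γ (q * r) c hkqr)) := by
    rw [← omegaPow_add, ← omegaPow_add, hχ]
  have h3 := omegaPow_ne_zero (chi0 (gammaD γ q ((r : ℤ) * c) hkq))
  have h6 := omegaPow_ne_zero (chi0 (gammaD γ (q * r) c hkqr))
  have n3 := eta8_ne_zero (scaleH q hq τ)
  have n6 := eta8_ne_zero (scaleH (q * r) (Nat.mul_pos hq hr) τ)
  unfold vQR
  rw [e1, er, eq, eqr]
  field_simp
  linear_combination (eta8 τ * eta8 (scaleH r hr τ)) * hω

/-- `v³ = Δ(τ) Δ(rτ) / (Δ(qτ) Δ(qrτ))`. -/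
theorem vQR_pow_three (q r : ℕ) (hq : 0 < q) (hr : 0 < r) (τ : ℍ) :
    vQR q r hq hr τ ^ 3 = unitFun' q hq τ * unitFun' q hq (scaleH r hr τ) := by
  have h6 : scaleH q hq (scaleH r hr τ) = scaleH (q * r) (Nat.mul_pos hq hr) τ :=
    scaleH_scaleH q r _ _ τ
  rw [unitFun', unitFun', h6, vQR, mul_pow, mul_pow, mul_pow, inv_pow, inv_pow,
    eta8_pow_three, eta8_pow_three, eta8_pow_three, eta8_pow_three]
  ring

/-- `v` is holomorphic. -/
theorem mdifferentiable_vQR (q r : ℕ) (hq : 0 < q) (hr : 0 < r) :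
    MDifferentiable 𝓘(ℂ) 𝓘(ℂ) (vQR q r hq hr) := by
  have hs : ∀ (d : ℕ) (hd : 0 < d),
      MDifferentiable 𝓘(ℂ) 𝓘(ℂ) (fun τ : ℍ => eta8 (scaleH d hd τ)) := fun d hd =>
    Fermat.Agent.S24.H648.mdifferentiable_J_scale mdifferentiable_eta8 d hd (scaleH d hd)
      (fun τ => rfl)
  have h1 := mdifferentiable_eta8.mul (hs r hr)
  have h2 := h1.div (hs q hq) (fun τ => eta8_ne_zero _)
  have h3 := h2.div (hs (q * r) (Nat.mul_pos hq hr)) (fun τ => eta8_ne_zero _)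
  have he : vQR q r hq hr = ((eta8 * fun τ : ℍ => eta8 (scaleH r hr τ)) /
      fun τ : ℍ => eta8 (scaleH q hq τ)) /
      fun τ : ℍ => eta8 (scaleH (q * r) (Nat.mul_pos hq hr) τ) := by
    funext τ
    simp [vQR, div_eq_mul_inv]
  rw [he]
  exact h3

/-- All translates of `v` have at most exponential growth. -/
theorem expGrowth_vQR_smul (q r : ℕ) (hq : 0 < q) (hr : 0 < r) (g : SL(2, ℤ)) :
    ExpGrowth (fun τ => vQR q r hq hr (g • τ)) := by
  apply expGrowth_of_cube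
  have hqr : 0 < q * r := Nat.mul_pos hq hr
  haveI : NeZero q := ⟨hq.ne'⟩
  have hG : unitFun q hq ∈ goodRing q :=
    Fermat.Agent.S28.H589.unitFun_mem_goodRing q hq
  have h1 := Fermat.Agent.S29.H989.KH_expGrowth_smul hG (frickeMat q)
    (frickeMat_det_pos q hq) g
  have h2 := Fermat.Agent.S29.H989.KH_expGrowth_smul hG (frickeMat (q * r))
    (frickeMat_det_pos (q * r) hqr) g
  have h := h1.mul h2
  have e : (fun τ => vQR q r hq hr (g • τ) ^ 3) =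
      (fun τ => unitFun q hq
        (Fermat.Agent.S29.H989.KH_glInt (frickeMat q) (frickeMat_det_pos q hq) •
          (g • τ))) *
      (fun τ => unitFun q hq
        (Fermat.Agent.S29.H989.KH_glInt (frickeMat (q * r)) (frickeMat_det_pos (q * r) hqr) •
          (g • τ))) := by
    funext τ
    rw [Pi.mul_apply, vQR_pow_three, unitFun'_eq, frickeMat_smul (q * r) hqr,
      unitFun'_scaleH_eq q r hq hr]
  rw [e]
  exact h

/-- **`v` is a good function of level `q r`.** -/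
theorem vQR_mem_goodRing {q r : ℕ} (hq : 0 < q) (hr : 0 < r) (h : QRAdm q r) :
    vQR q r hq hr ∈ goodRing (q * r) :=
  ⟨mdifferentiable_vQR q r hq hr, fun γ hγ τ => vQR_smul hq hr h γ hγ τ,
    fun g => expGrowth_vQR_smul q r hq hr g⟩

end Fermat.Agent.S59.UnitQR.H464
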