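import Fermat.Agent.S59.UnitQR.H464.QRElt
import Fermat.Agent.S59.Unit3.H461.Unit3Hor

/-!
# S59 / cell B1, leaf UNIT-QR, part 5: horizontal part
(helper464; generic twin of helper461's `Unit3Hor`)

`D = q⁸ v⁻¹` and `D' = v` lie in every valuation subring of `F_N` (`q r ∣ N`) containing `j`;
they lie in the finite chart of the coordinate `x = j · j_q` at level `M * q`, `r ∣ M`.
Here `q` is prime and `r` is prime or `1`.
-/

set_option autoImplicit false
set_option synthInstance.maxHeartbeats 400000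
set_option maxHeartbeats 1600000

noncomputable section

namespace Fermat.Agent.S59.UnitQR.H464

open ModularCurve HahnSeries Polynomial
open Fermat.Agent.A2.Mod Fermat.Agent.S28 Fermat.Agent.A2.Mod.H873
open Fermat.Agent.S36.H438 (castE uE uE' dE)
open Fermat.Agent.S59.Unit3.H461 (mem_of_pow_three_mem)

/-! ## 1. Transport of the integral relations by `t ↦ t^r` -/

theorem qExpand_r_eval₂ (r : ℕ) [NeZero r] (Φ : Polynomial (Polynomial ℤ))
    (A B : LaurentSeries ℤ) (h : Φ.eval₂ (evalAt B) A = 0) :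
    Φ.eval₂ (evalAt (qExpand ℤ r B)) (qExpand ℤ r A) = 0 := by
  have h2 := Polynomial.hom_eval₂ Φ (evalAt B) (qExpand ℤ r) A
  rw [h, map_zero, Fermat.Agent.S28.H145.qExpand_comp_evalAt] at h2
  exact h2.symm

/-- The two integrality relations of the unit pair of level `q`, at `t^r`. -/
theorem exists_unitPoly_r (q r : ℕ) [NeZero q] [NeZero r] (hq : q.Prime) :
    ∃ Ψ : Polynomial (Polynomial ℤ), Ψ.Monic ∧
      Ψ.eval₂ (evalAt (qExpand ℤ r (jqModC ℤ)))
        ((q : LaurentSeries ℤ) ^ 12 * qExpand ℤ r (unitL ℤ q)) = 0 ∧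
      Ψ.eval₂ (evalAt (qExpand ℤ (q * r) (jqModC ℤ))) (qExpand ℤ r (H589.unitL' q)) = 0 := by
  obtain ⟨Ψ, hΨ, h1, h2⟩ := Fermat.Agent.S36.H438.exists_unitPoly_both q hq
  refine ⟨Ψ, hΨ, ?_, ?_⟩
  · have h := qExpand_r_eval₂ r Ψ _ _ h1
    rw [map_mul, map_pow, map_natCast] at h
    exact h
  · have h := qExpand_r_eval₂ r Ψ _ _ h2
    rwa [qExpand_r_q] at h

/-! ## 2. In `F_{N,E}` -/

section Horizontal

variable (E : IntermediateField ℚ Qb) (q r : ℕ) [NeZero q] [NeZero r] (h : QRAdm q r)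
  (N : ℕ) [NeZero N] (hN : q * r ∣ N)

/-- `q¹² u(t^r)`. -/
def dRE : FE E N := algebraMap E (FE E N) ((q : E) ^ 12) * uRE E q r N hN

theorem coe_dRE :
    ((dRE E q r N hN : FE E N) : LaurentSeries E)
      = castE E ((q : LaurentSeries ℤ) ^ 12 * qExpand ℤ r (unitL ℤ q)) := by
  show algebraMap E (LaurentSeries E) ((q : E) ^ 12) * castE E (qExpand ℤ r (unitL ℤ q)) = _
  rw [map_mul, map_pow, map_pow, map_natCast, map_natCast]

theorem dQE_pow_three' :
    dQE E q r h N hN ^ 3 = dE E N q (q_dvd_of_mul_dvd q r N hN) * dRE E q r N hN :=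
  dQE_pow_three E q r h N hN

theorem exists_unitPoly_r_FE (hq : q.Prime) :
    ∃ Ψ : Polynomial (Polynomial ℤ), Ψ.Monic ∧
      Ψ.eval₂ (Polynomial.aeval (R := ℤ) (jE E N r (r_dvd_of_mul_dvd q r N hN))).toRingHom
        (dRE E q r N hN) = 0 ∧
      Ψ.eval₂ (Polynomial.aeval (R := ℤ) (jE E N (q * r) hN)).toRingHom
        (uRE' E q r N hN) = 0 := by
  obtain ⟨Ψ, hΨ, h1, h2⟩ := exists_unitPoly_r q r hq
  refine ⟨Ψ, hΨ, ?_, ?_⟩
  · exact eval₂_eq_zero_of_int E N Ψ _ _ _ _ (coe_dRE E q r N hN) (coe_jE_int E N r _) h1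
  · exact eval₂_eq_zero_of_int E N Ψ _ _ _ _ (coe_uRE' E q r N hN) (coe_jE_int E N (q * r) hN) h2

theorem dRE_mem_of_jr_mem (hq : q.Prime) (V : ValuationSubring (FE E N))
    (hj : jE E N r (r_dvd_of_mul_dvd q r N hN) ∈ V) : dRE E q r N hN ∈ V := by
  obtain ⟨Ψ, hΨ, h1, -⟩ := exists_unitPoly_r_FE E q r N hN hq
  exact mem_valuationSubring_of_monic_eval Ψ hΨ h1 V hj

theorem uRE'_mem_of_jqr_mem (hq : q.Prime) (V : ValuationSubring (FE E N))
    (hj : jE E N (q * r) hN ∈ V) : uRE' E q r N hN ∈ V := by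
  obtain ⟨Ψ, hΨ, -, h2⟩ := exists_unitPoly_r_FE E q r N hN hq
  exact mem_valuationSubring_of_monic_eval Ψ hΨ h2 V hj

/-- `j_r ∈ V → j_{qr} ∈ V` (modular equation of level `q` at `t^r`). -/
theorem jqr_mem_of_jr_mem (hq : q.Prime) (V : ValuationSubring (FE E N))
    (hj : jE E N r (r_dvd_of_mul_dvd q r N hN) ∈ V) : jE E N (q * r) hN ∈ V := by
  obtain ⟨D⟩ := Fermat.Agent.S28.H807.nonempty_modPolyData q hq
  have h0 := qExpand_r_eval₂ r D.Φ _ _ D.eval_jp
  rw [qExpand_r_q] at h0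
  have h1 : D.Φ.eval₂ (Polynomial.aeval (R := ℤ)
      (jE E N r (r_dvd_of_mul_dvd q r N hN))).toRingHom (jE E N (q * r) hN) = 0 :=
    eval₂_eq_zero_of_int E N D.Φ _ _ _ _ (coe_jE_int E N (q * r) hN) (coe_jE_int E N r _) h0
  exact mem_valuationSubring_of_monic_eval D.Φ D.monic h1 V hj

/-- `j ∈ V → j_r ∈ V` for `r` prime or `r = 1`. -/
theorem jr_mem_of_j_mem (hr : r.Prime ∨ r = 1) (V : ValuationSubring (FE E N))
    (hj : jE E N 1 (one_dvd N) ∈ V) : jE E N r (r_dvd_of_mul_dvd q r N hN) ∈ V := by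
  rcases hr with hr | hr
  · exact (Fermat.Agent.S36.H438.j_mem_iff_jq_mem E N r (r_dvd_of_mul_dvd q r N hN) hr V).mp hj
  · subst hr
    exact hj

/-- `j ∈ V` implies `j_r, j_q, j_{qr} ∈ V`. -/
theorem j_all_mem_of_j_mem (hq : q.Prime) (hr : r.Prime ∨ r = 1)
    (V : ValuationSubring (FE E N)) (hj : jE E N 1 (one_dvd N) ∈ V) :
    jE E N r (r_dvd_of_mul_dvd q r N hN) ∈ V ∧ jE E N q (q_dvd_of_mul_dvd q r N hN) ∈ V ∧
      jE E N (q * r) hN ∈ V := by
  have h2 := jr_mem_of_j_mem E q r N hN hr V hj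
  have h3 := (Fermat.Agent.S36.H438.j_mem_iff_jq_mem E N q (q_dvd_of_mul_dvd q r N hN)
    hq V).mp hj
  exact ⟨h2, h3, jqr_mem_of_jr_mem E q r N hN hq V h2⟩

/-- **UNIT-QR (3a)**: `D = q⁸ v⁻¹` lies in every valuation subring containing `j`. -/
theorem dQE_mem_of_j_mem (hq : q.Prime) (hr : r.Prime ∨ r = 1) (V : ValuationSubring (FE E N))
    (hj : jE E N 1 (one_dvd N) ∈ V) : dQE E q r h N hN ∈ V := by
  obtain ⟨h2, -, -⟩ := j_all_mem_of_j_mem E q r N hN hq hr V hj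
  apply mem_of_pow_three_mem V
  rw [dQE_pow_three']
  exact V.mul_mem _ _
    (Fermat.Agent.S36.H438.dE_mem_of_j_mem E N q _ hq V hj)
    (dRE_mem_of_jr_mem E q r N hN hq V h2)

/-- **UNIT-QR (3b)**: `D' = v` lies in every valuation subring containing `j`. -/
theorem vQE_mem_of_j_mem (hq : q.Prime) (hr : r.Prime ∨ r = 1) (V : ValuationSubring (FE E N))
    (hj : jE E N 1 (one_dvd N) ∈ V) : vQE E q r h N hN ∈ V := by
  obtain ⟨-, h3, h6'⟩ := j_all_mem_of_j_mem E q r N hN hq hr V hj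
  apply mem_of_pow_three_mem V
  rw [vQE_pow_three]
  exact V.mul_mem _ _
    (Fermat.Agent.S36.H438.uE'_mem_of_jq_mem E N q _ hq V h3)
    (uRE'_mem_of_jqr_mem E q r N hN hq V h6')

/-- **UNIT-QR (3)**: at a place `V ⊇ E` of `F_N` where `j` is finite, `D` and `D'` are units
(no zeros or poles of `v` outside the cusps). -/
theorem pair_unit_of_j_mem464 (hq : q.Prime) (hr : r.Prime ∨ r = 1)
    (V : ValuationSubring (FE E N))
    (hE : ∀ e : E, algebraMap E (FE E N) e ∈ V) (hj : jE E N 1 (one_dvd N) ∈ V) :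
    (dQE E q r h N hN ∈ V ∧ (dQE E q r h N hN)⁻¹ ∈ V) ∧
      (vQE E q r h N hN ∈ V ∧ (vQE E q r h N hN)⁻¹ ∈ V) := by
  have hD := dQE_mem_of_j_mem E q r h N hN hq hr V hj
  have hv := vQE_mem_of_j_mem E q r h N hN hq hr V hj
  refine ⟨⟨hD, ?_⟩, ⟨hv, ?_⟩⟩
  · rw [dQE_inv]
    exact V.mul_mem _ _ (hE _) hv
  · have h1 := V.mul_mem _ _ (hE ((q : E) ^ 8)⁻¹) hD
    rwa [dQE, ← mul_assoc, ← map_mul, inv_mul_cancel₀ (q_pow_ne_zero E q 8), map_one, one_mul,
      ← vQE_inv] at h1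

end Horizontal

/-! ## 3. The finite chart of `x = j · j_q` at level `M * q`, `r ∣ M` -/

section Chart

variable (P : ValuationSubring Qb) (E : IntermediateField ℚ Qb) (q r : ℕ) [NeZero q] [NeZero r]
  (h : QRAdm q r) (M : ℕ) [NeZero M] (hrM : r ∣ M)

include hrM in
omit [NeZero q] [NeZero r] [NeZero M] in
theorem qr_dvd_mul : q * r ∣ M * q := by
  obtain ⟨k, rfl⟩ := hrM
  exact ⟨k, by ring⟩

/-- **UNIT-QR (3c)**: `D = q⁸ v⁻¹` lies in the finite chart of the coordinate `x = j · j_q`. -/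
theorem dQE_mem_chartAlg (hq : q.Prime) (hr : r.Prime ∨ r = 1) :
    dQE E q r h (M * q) (qr_dvd_mul q r M hrM) ∈ chartAlg P E (M * q) (xE E M q) := by
  rw [← Fermat.Agent.A2.Mod.H142.mem_chart_iff]
  refine isIntegralElem_of_isIntegral_closure _
    (isIntegral_closure_of_forall_valuationSubring fun V hx => ?_)
  exact dQE_mem_of_j_mem E q r h (M * q) _ hq hr V
    (Fermat.Agent.S36.H438.j_mem_of_x_mem E M q hq V hx).1

/-- **UNIT-QR (3d)**: `D' = v` lies in the finite chart of the coordinate `x = j · j_q`. -/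
theorem vQE_mem_chartAlg (hq : q.Prime) (hr : r.Prime ∨ r = 1) :
    vQE E q r h (M * q) (qr_dvd_mul q r M hrM) ∈ chartAlg P E (M * q) (xE E M q) := by
  rw [← Fermat.Agent.A2.Mod.H142.mem_chart_iff]
  refine isIntegralElem_of_isIntegral_closure _
    (isIntegral_closure_of_forall_valuationSubring fun V hx => ?_)
  exact vQE_mem_of_j_mem E q r h (M * q) _ hq hr V
    (Fermat.Agent.S36.H438.j_mem_of_x_mem E M q hq V hx).1

end Chart

end Fermat.Agent.S59.UnitQR.H464
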