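import Fermat.Agent.S59.UnitQR.H464.QRPkg
import Fermat.Agent.Ribet.H464.UnitPairExp

/-!
# S59 / cell B1, leaf UNIT-QR, part 7: the unit pair in the charts of `A2/Mod` (INST-B form)
(helper464; twin of `Ribet/H873/UnitPair.lean` + `Ribet/H464/UnitPairExp.lean`)

* `exists_unitPair_of_package464` : ABSTRACT.  From a package `D · D' = q ^ k`, `D, D' ∈ B`,
  `D' ∈ (V∞)ˣ`, `D ∈ (V₀)ˣ`, `D' = castE X`, the normalised pair `D · D' = w ^ (k e)`
  (`q ~ w ^ e`), `D ∉ w V∞`, `D' ∉ w V₀`, with the expansion of `D` remembered (any exponent `k`,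
  any integral series `X`);
* `exists_unitPair_cut_of_package464` : the same with `D ∉ p₁`, `D' ∉ p₂` (`A2.Mod.IsCut`);
* `exists_unitPair_cutQR` : for the unit `v = (η(τ)η(rτ)/(η(qτ)η(qrτ)))⁸` (exponent `8 e`);
* `exists_unitPair_unramQR` : at an unramified level (`q ~ w`): exponent `8`, prime to `3`.
-/

set_option autoImplicit false
set_option synthInstance.maxHeartbeats 400000
set_option maxHeartbeats 1600000
set_option linter.unusedSectionVars false

noncomputable section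

namespace Fermat.Agent.S59.UnitQR.H464

open ModularCurve HahnSeries
open Fermat.Agent.A2.Mod Fermat.Agent.S28
open Fermat.Agent.S36.H438 (castE)

variable {P : ValuationSubring Qb} {E : IntermediateField ℚ Qb}

section Pair

variable {M q : ℕ} [NeZero M] [NeZero q]

/-- **INST-B, abstract, normalised, with expansion.** -/
theorem exists_unitPair_of_package464 {k : ℕ} {X : LaurentSeries ℤ} {w : RE P E}
    (hS : Setting P E M q w)
    {V : ValuationSubring (FE E (M * q))} {W : FE E (M * q) ≃ₐ[E] FE E (M * q)}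
    (hV : IsVinf P E (M * q) V) (hW : IsFricke E (M * q) W)
    (hpkg : ∃ D D' : FE E (M * q),
      (D' : LaurentSeries E) = castE E X ∧
      D * D' = algebraMap E (FE E (M * q)) ((q : E) ^ k) ∧
      D ∈ chartAlg P E (M * q) (xE E M q) ∧
      D' ∈ chartAlg P E (M * q) (xE E M q) ∧
      (∀ V : ValuationSubring (FE E (M * q)), IsVinf P E (M * q) V → D' ∈ V ∧ D'⁻¹ ∈ V) ∧
      (∀ (V : ValuationSubring (FE E (M * q))) (W : FE E (M * q) ≃ₐ[E] FE E (M * q)),
        IsVinf P E (M * q) V → IsFricke E (M * q) W →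
          D ∈ V.comap (W : FE E (M * q) →+* FE E (M * q)) ∧
          D⁻¹ ∈ V.comap (W : FE E (M * q) →+* FE E (M * q)))) :
    ∃ (e : ℕ) (D D' : chartAlg P E (M * q) (xE E M q)), 0 < e ∧
      Associated ((q : ℕ) : RE P E) (w ^ e) ∧
      D * D' = algebraMap (RE P E) (chartAlg P E (M * q) (xE E M q)) w ^ (k * e) ∧
      ¬ InW P E (M * q) V w (D : FE E (M * q)) ∧
      ¬ InW P E (M * q) (V.comap (W : FE E (M * q) →+* FE E (M * q))) w
        (D' : FE E (M * q)) ∧
      (((D : FE E (M * q)) : FE E (M * q)) : LaurentSeries E) = castE E X := by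
  haveI := hS.dvr
  obtain ⟨D₀', D₀, hexp, hmul, hD', hD, hVu, hV0u⟩ := hpkg
  have hc0 : algebraMap E (FE E (M * q)) ((q : E) ^ k) ≠ 0 := by
    rw [Ne, map_eq_zero]
    exact pow_ne_zero k (Nat.cast_ne_zero.mpr (NeZero.ne q))
  have hD0 : D₀ ≠ 0 := by
    rintro rfl
    rw [mul_zero] at hmul
    exact hc0 hmul.symm
  have hD'0 : D₀' ≠ 0 := by
    rintro rfl
    rw [zero_mul] at hmul
    exact hc0 hmul.symm
  have hmul' : D₀ * D₀' = cE P E (M * q) ((q : RE P E) ^ k) := by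
    rw [mul_comm D₀ D₀', hmul, cE]
    congr 1
  have hDV : ¬ InW P E (M * q) V w D₀ :=
    Fermat.Agent.Ribet.H873.not_inW_of_inv_mem873
      (Fermat.Agent.Ribet.H873.cE_inv_not_mem873 hS.dvr hS.unif hV) hD0 (hVu V hV).2
  have hD'V : ¬ InW P E (M * q) (V.comap (W : FE E (M * q) →+* FE E (M * q))) w D₀' :=
    Fermat.Agent.Ribet.H873.not_inW_of_inv_mem873
      (Fermat.Agent.Ribet.H873.cE_inv_not_mem_comap873 hS.dvr hS.unif hV W) hD'0
      (hV0u V W hV hW).2
  have hq0 : ((q : ℕ) : RE P E) ≠ 0 := Nat.cast_ne_zero.mpr (NeZero.ne q)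
  obtain ⟨e, he⟩ := IsDiscreteValuationRing.associated_pow_irreducible hq0 hS.unif
  have he0 : 0 < e := by
    rcases Nat.eq_zero_or_pos e with h0 | h0
    · exfalso
      rw [h0, pow_zero] at he
      exact Fermat.Agent.Ribet.H873.not_isUnit_natCast873 hS.lies_over
        (he.symm.isUnit_iff.mp isUnit_one)
    · exact h0
  obtain ⟨ε, hε⟩ := he
  set B := chartAlg P E (M * q) (xE E M q) with hB
  refine ⟨e, ⟨D₀, hD⟩, algebraMap (RE P E) B ((ε : RE P E) ^ k) * ⟨D₀', hD'⟩,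
    he0, ⟨ε, hε⟩, ?_, hDV, ?_, hexp⟩
  · apply Subtype.ext
    show D₀ * (algebraMap (RE P E) (FE E (M * q)) ((ε : RE P E) ^ k) * D₀') =
      (algebraMap (RE P E) (FE E (M * q)) w) ^ (k * e)
    have hcE : cE P E (M * q) ((q : RE P E) ^ k) =
        algebraMap (RE P E) (FE E (M * q)) ((q : RE P E) ^ k) := rfl
    rw [mul_left_comm, hmul', hcE, ← map_mul, ← map_pow]
    congr 1
    rw [pow_mul', ← hε]
    ring
  · intro h
    apply hD'V
    have hεV : algebraMap (RE P E) (FE E (M * q)) (((ε⁻¹ : (RE P E)ˣ) : RE P E) ^ k) ∈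
        V.comap (W : FE E (M * q) →+* FE E (M * q)) := by
      rw [ValuationSubring.mem_comap]
      have h1 : (W : FE E (M * q) →+* FE E (M * q))
          (algebraMap (RE P E) (FE E (M * q)) (((ε⁻¹ : (RE P E)ˣ) : RE P E) ^ k)) =
          algebraMap E (FE E (M * q)) ((((ε⁻¹ : (RE P E)ˣ) : RE P E) ^ k : RE P E) : E) :=
        W.commutes _
      rw [h1]
      exact (Fermat.Agent.A2.Mod.H708.algebraMap_mem_iff_of_isVinf hV _).mpr (Subtype.mem _)
    have h2 := (V.comap (W : FE E (M * q) →+* FE E (M * q))).mul_mem _ _ hεV h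
    have h3 : algebraMap (RE P E) (FE E (M * q)) (((ε⁻¹ : (RE P E)ˣ) : RE P E) ^ k) *
        (((algebraMap (RE P E) B ((ε : RE P E) ^ k) * ⟨D₀', hD'⟩ : B) : FE E (M * q)) *
          (cE P E (M * q) w)⁻¹) = D₀' * (cE P E (M * q) w)⁻¹ := by
      have h4 : algebraMap (RE P E) (FE E (M * q)) (((ε⁻¹ : (RE P E)ˣ) : RE P E) ^ k) *
          algebraMap (RE P E) (FE E (M * q)) ((ε : RE P E) ^ k) = 1 := by
        rw [← map_mul, ← mul_pow, Units.inv_mul, one_pow, map_one]
      show algebraMap (RE P E) (FE E (M * q)) (((ε⁻¹ : (RE P E)ˣ) : RE P E) ^ k) *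
        ((algebraMap (RE P E) (FE E (M * q)) ((ε : RE P E) ^ k) * D₀') *
          (cE P E (M * q) w)⁻¹) = _
      rw [← mul_assoc, ← mul_assoc, h4, one_mul]
    rw [h3] at h2
    exact h2

/-- **INST-B, abstract, cut form, with expansion.** -/
theorem exists_unitPair_cut_of_package464 {k : ℕ} {X : LaurentSeries ℤ} {w : RE P E}
    (hS : Setting P E M q w)
    {V : ValuationSubring (FE E (M * q))} {W : FE E (M * q) ≃ₐ[E] FE E (M * q)}
    (hV : IsVinf P E (M * q) V) (hW : IsFricke E (M * q) W)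
    (hpkg : ∃ D D' : FE E (M * q),
      (D' : LaurentSeries E) = castE E X ∧
      D * D' = algebraMap E (FE E (M * q)) ((q : E) ^ k) ∧
      D ∈ chartAlg P E (M * q) (xE E M q) ∧
      D' ∈ chartAlg P E (M * q) (xE E M q) ∧
      (∀ V : ValuationSubring (FE E (M * q)), IsVinf P E (M * q) V → D' ∈ V ∧ D'⁻¹ ∈ V) ∧
      (∀ (V : ValuationSubring (FE E (M * q))) (W : FE E (M * q) ≃ₐ[E] FE E (M * q)),
        IsVinf P E (M * q) V → IsFricke E (M * q) W →
          D ∈ V.comap (W : FE E (M * q) →+* FE E (M * q)) ∧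
          D⁻¹ ∈ V.comap (W : FE E (M * q) →+* FE E (M * q))))
    (p₁ p₂ : Ideal (chartAlg P E (M * q) (xE E M q)))
    (hc₁ : IsCut P E (M * q) w V (chartAlg P E (M * q) (xE E M q)) p₁)
    (hc₂ : IsCut P E (M * q) w (V.comap (W : FE E (M * q) →+* FE E (M * q)))
      (chartAlg P E (M * q) (xE E M q)) p₂) :
    ∃ (e : ℕ) (D D' : chartAlg P E (M * q) (xE E M q)), 0 < e ∧
      Associated ((q : ℕ) : RE P E) (w ^ e) ∧
      D * D' = algebraMap (RE P E) (chartAlg P E (M * q) (xE E M q)) w ^ (k * e) ∧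
      D ∉ p₁ ∧ D' ∉ p₂ ∧
      (((D : FE E (M * q)) : FE E (M * q)) : LaurentSeries E) = castE E X := by
  obtain ⟨e, D, D', he, hass, hmul, hD, hD', hexp⟩ :=
    exists_unitPair_of_package464 hS hV hW hpkg
  exact ⟨e, D, D', he, hass, hmul, fun h => hD ((hc₁ D).mp h), fun h => hD' ((hc₂ D').mp h),
    hexp⟩

variable {r : ℕ} [NeZero r]

/-- The package of `muQR_package`, in the shape consumed above. -/
theorem muQR_package_short (hq : q.Prime) (hr : r.Prime ∨ r = 1) (h : QRAdm q r)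
    (hrM : r ∣ M) :
    ∃ D D' : FE E (M * q),
      (D' : LaurentSeries E) = castE E (vQRL q r) ∧
      D * D' = algebraMap E (FE E (M * q)) ((q : E) ^ 8) ∧
      D ∈ chartAlg P E (M * q) (xE E M q) ∧
      D' ∈ chartAlg P E (M * q) (xE E M q) ∧
      (∀ V : ValuationSubring (FE E (M * q)), IsVinf P E (M * q) V → D' ∈ V ∧ D'⁻¹ ∈ V) ∧
      (∀ (V : ValuationSubring (FE E (M * q))) (W : FE E (M * q) ≃ₐ[E] FE E (M * q)),
        IsVinf P E (M * q) V → IsFricke E (M * q) W →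
          D ∈ V.comap (W : FE E (M * q) →+* FE E (M * q)) ∧
          D⁻¹ ∈ V.comap (W : FE E (M * q) →+* FE E (M * q))) := by
  obtain ⟨D, D', -, h2, h3, h4, h5, h6, h7, -⟩ := muQR_package P E q r hq hr h M hrM
  exact ⟨D, D', h2, h3, h4, h5, h6, h7⟩

/-- **INST-B for the unit `v = (η(τ)η(rτ)/(η(qτ)η(qrτ)))⁸`, cut form, with expansion**:
`D · D' = w ^ (8 e)`, `q ~ w ^ e`, `D ∉ p₁`, `D' ∉ p₂`, `D = v`. -/
theorem exists_unitPair_cutQR {w : RE P E} (hS : Setting P E M q w)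
    (hr : r.Prime ∨ r = 1) (h : QRAdm q r) (hrM : r ∣ M)
    {V : ValuationSubring (FE E (M * q))} {W : FE E (M * q) ≃ₐ[E] FE E (M * q)}
    (hV : IsVinf P E (M * q) V) (hW : IsFricke E (M * q) W)
    (p₁ p₂ : Ideal (chartAlg P E (M * q) (xE E M q)))
    (hc₁ : IsCut P E (M * q) w V (chartAlg P E (M * q) (xE E M q)) p₁)
    (hc₂ : IsCut P E (M * q) w (V.comap (W : FE E (M * q) →+* FE E (M * q)))
      (chartAlg P E (M * q) (xE E M q)) p₂) :
    ∃ (e : ℕ) (D D' : chartAlg P E (M * q) (xE E M q)), 0 < e ∧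
      Associated ((q : ℕ) : RE P E) (w ^ e) ∧
      D * D' = algebraMap (RE P E) (chartAlg P E (M * q) (xE E M q)) w ^ (8 * e) ∧
      D ∉ p₁ ∧ D' ∉ p₂ ∧
      (((D : FE E (M * q)) : FE E (M * q)) : LaurentSeries E) = castE E (vQRL q r) :=
  exists_unitPair_cut_of_package464 hS hV hW (muQR_package_short hS.q_prime hr h hrM)
    p₁ p₂ hc₁ hc₂

/-- `8` is prime to every power of `3`. -/
theorem coprime_eight_three_pow (n : ℕ) : Nat.Coprime 8 (3 ^ n) :=
  Nat.Coprime.pow_right n (by norm_num)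

/-- **INST-B at an UNRAMIFIED level** (`q ~ w`): the unit pair of exponent `8`, prime to `3`,
with `D = v = (η(τ)η(rτ)/(η(qτ)η(qrτ)))⁸`. -/
theorem exists_unitPair_unramQR {w : RE P E} (hS : Setting P E M q w)
    (hram : Associated ((q : ℕ) : RE P E) w)
    (hr : r.Prime ∨ r = 1) (h : QRAdm q r) (hrM : r ∣ M)
    {V : ValuationSubring (FE E (M * q))} {W : FE E (M * q) ≃ₐ[E] FE E (M * q)}
    (hV : IsVinf P E (M * q) V) (hW : IsFricke E (M * q) W)
    (p₁ p₂ : Ideal (chartAlg P E (M * q) (xE E M q)))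
    (hc₁ : IsCut P E (M * q) w V (chartAlg P E (M * q) (xE E M q)) p₁)
    (hc₂ : IsCut P E (M * q) w (V.comap (W : FE E (M * q) →+* FE E (M * q)))
      (chartAlg P E (M * q) (xE E M q)) p₂) :
    ∃ (D D' : chartAlg P E (M * q) (xE E M q)),
      (∀ n : ℕ, Nat.Coprime 8 (3 ^ n)) ∧
      D * D' = algebraMap (RE P E) (chartAlg P E (M * q) (xE E M q)) w ^ 8 ∧
      D ∉ p₁ ∧ D' ∉ p₂ ∧
      (((D : FE E (M * q)) : FE E (M * q)) : LaurentSeries E) = castE E (vQRL q r) := by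
  haveI := hS.dvr
  obtain ⟨e, D, D', -, hass, hmul, hD, hD', hexp⟩ :=
    exists_unitPair_cutQR hS hr h hrM hV hW p₁ p₂ hc₁ hc₂
  have hram' : Associated ((q : ℕ) : RE P E) (w ^ 1) := by rwa [pow_one]
  have he : e = 1 := Fermat.Agent.Ribet.H464.pow_eq_of_associated464 hS.unif hass hram'
  subst he
  exact ⟨D, D', coprime_eight_three_pow, by rwa [mul_one] at hmul, hD, hD', hexp⟩

end Pair

end Fermat.Agent.S59.UnitQR.H464
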