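import Fermat.Agent.S59.UnitQR.H464.QRHor
import Fermat.Agent.S59.Unit3.H461.Unit3Pkg

/-!
# S59 / cell B1, leaf UNIT-QR, part 6: the Fricke side and the package
(helper464; generic twin of helper461's `Unit3Pkg`)

* `coe_fricke_dRE` : `W (q¹² u(t^r)) = u'(t^m)` at level `N = q * m * r`;
* `dQE_unit_vzero` : `D = q⁸ v⁻¹` is a unit of `V₀ = V∞.comap W` (any level `N`, `q r ∣ N`);
* `muQR_package` : the unit pair `D = q⁸ v⁻¹`, `D' = v`, `v = (η(τ)η(rτ)/(η(qτ)η(qrτ)))⁸`, at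
  level `M * q`, `r ∣ M`, in the format of `S36.H438.mu_package` with the exponent `12` replaced
  by `8` (`3 ∤ 8`).  Hypotheses: `q` prime, `r` prime or `1`, `3 ∤ q r`, `3 ∣ (q - 1)(r + 1)`.
-/

set_option autoImplicit false
set_option synthInstance.maxHeartbeats 400000
set_option maxHeartbeats 1600000

noncomputable section

namespace Fermat.Agent.S59.UnitQR.H464

open ModularCurve HahnSeries Polynomial
open Fermat.Agent.A2.Mod Fermat.Agent.S28 Fermat.Agent.A2.Mod.H873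
open Fermat.Agent.S36.H438 (castE uE uE' dE)
open Fermat.Agent.S59.Unit3.H461 (mem_of_pow_three_mem)

/-! ## 1. The Fricke involution -/

section Fricke

variable (P : ValuationSubring Qb) (E : IntermediateField ℚ Qb) (q r : ℕ) [NeZero q] [NeZero r]

omit [NeZero r] in
theorem castE_qExpand_unitL'_mul464 (m : ℕ) [NeZero m] :
    castE E (qExpand ℤ m (H589.unitL' q)) * castE E (qExpand ℤ m (unitL ℤ q)) = 1 := by
  rw [← map_mul, ← map_mul, mul_comm, Fermat.Agent.S36.H438.unitL_mul_unitL', map_one, map_one]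

/-- `q¹² u(t^r) = β (q¹² u)`, `β : F_{qm} → F_{qm·r}`. -/
theorem dRE_eq_beta (m : ℕ) [NeZero m] (hN : q * r ∣ q * m * r) :
    dRE E q r (q * m * r) hN = βE E (q * m) r (dE E (q * m) q (dvd_mul_right q m)) := by
  apply Subtype.ext
  rw [coe_dRE, coe_heckeBetaBar, Fermat.Agent.S36.H438.coe_dE]
  have hX : (q : LaurentSeries ℤ) ^ 12 * qExpand ℤ r (unitL ℤ q)
      = qExpand ℤ r (((q : ℕ) : LaurentSeries ℤ) ^ 12 * unitL ℤ q) := by
    rw [map_mul, map_pow, map_natCast]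
  rw [hX]
  exact coeffMap_qExpand _ r _

/-- `W (q¹² u(t^r)) = u'(t^m)` in `t`-expansions, level `N = q * m * r`. -/
theorem coe_fricke_dRE (m : ℕ) [NeZero m] (hN : q * r ∣ q * m * r)
    (W : FE E (q * m * r) ≃ₐ[E] FE E (q * m * r)) (hW : IsFricke E (q * m * r) W) :
    ((W (dRE E q r (q * m * r) hN) : FE E (q * m * r)) : LaurentSeries E)
      = castE E (qExpand ℤ m (H589.unitL' q)) := by
  have h := (Fermat.Agent.A2.Mod.H751.frickeCompat E (q * m) r
    (Fermat.Agent.A2.Mod.H751.frickeE E (q * m)) W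
    (Fermat.Agent.A2.Mod.H751.isFricke_frickeE E (q * m)) hW
    (dE E (q * m) q (dvd_mul_right q m))).2
  rw [dRE_eq_beta, h, coe_heckeAlphaBar]
  exact Fermat.Agent.S36.H438.coe_fricke_dE E (q * m) q m rfl (dvd_mul_right q m)
    (Fermat.Agent.A2.Mod.H751.frickeE E (q * m))
    (Fermat.Agent.A2.Mod.H751.isFricke_frickeE E (q * m))

/-- `q¹² u(t^r)` is a unit of `V₀ = V∞.comap W`, level `N = q * m * r`. -/
theorem dRE_unit_vzero (m : ℕ) [NeZero m] (hN : q * r ∣ q * m * r)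
    {V : ValuationSubring (FE E (q * m * r))}
    (W : FE E (q * m * r) ≃ₐ[E] FE E (q * m * r)) (hV : IsVinf P E (q * m * r) V)
    (hW : IsFricke E (q * m * r) W) :
    W (dRE E q r (q * m * r) hN) ∈ V ∧ W (dRE E q r (q * m * r) hN)⁻¹ ∈ V := by
  have hc := coe_fricke_dRE E q r m hN W hW
  refine ⟨Fermat.Agent.S36.H438.mem_vinf_of_coe_eq_castE P E hV hc, ?_⟩
  rw [map_inv₀]
  refine Fermat.Agent.S36.H438.mem_vinf_of_coe_eq_castE P E hV
    (X := qExpand ℤ m (unitL ℤ q)) ?_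
  rw [IntermediateField.coe_inv, hc]
  exact inv_eq_of_mul_eq_one_right (castE_qExpand_unitL'_mul464 E q m)

/-- **UNIT-QR (2)**: `D = q⁸ v⁻¹` is a unit of `V₀ = V∞.comap W`, any level `N` with
`q r ∣ N`. -/
theorem dQE_unit_vzero (h : QRAdm q r) (N : ℕ) [NeZero N] (hN : q * r ∣ N)
    {V : ValuationSubring (FE E N)}
    (W : FE E N ≃ₐ[E] FE E N) (hV : IsVinf P E N V) (hW : IsFricke E N W) :
    dQE E q r h N hN ∈ V.comap (W : FE E N →+* FE E N) ∧
      (dQE E q r h N hN)⁻¹ ∈ V.comap (W : FE E N →+* FE E N) := by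
  obtain ⟨m, rfl⟩ : ∃ m, N = q * m * r := by
    obtain ⟨k, hk⟩ := hN
    exact ⟨k, by rw [hk]; ring⟩
  have hm : NeZero m := ⟨by
    rintro rfl
    exact NeZero.ne (q * 0 * r) (by simp)⟩
  have h1 := Fermat.Agent.S36.H438.dE_unit_vzero P E (q * m * r) q (m * r) (by ring)
    (q_dvd_of_mul_dvd q r _ hN) W hV hW
  have h1a : W (dE E (q * m * r) q (q_dvd_of_mul_dvd q r _ hN)) ∈ V := h1.1
  have h1b : W (dE E (q * m * r) q (q_dvd_of_mul_dvd q r _ hN))⁻¹ ∈ V := h1.2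
  obtain ⟨h2a, h2b⟩ := dRE_unit_vzero P E q r m hN W hV hW
  constructor
  · show W _ ∈ V
    apply mem_of_pow_three_mem V
    rw [← map_pow, dQE_pow_three', map_mul]
    exact V.mul_mem _ _ h1a h2a
  · show W _ ∈ V
    apply mem_of_pow_three_mem V
    rw [← map_pow, inv_pow, dQE_pow_three', mul_inv, map_mul]
    exact V.mul_mem _ _ h1b h2b

end Fricke

/-! ## 2. The package -/

section Package

variable (P : ValuationSubring Qb) (E : IntermediateField ℚ Qb)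

/-- **Leaf UNIT-QR, packaged at level `M * q`, `r ∣ M`** (the analogue of `S36.H438.mu_package`
with the exponent `12` replaced by `8`, which is prime to `3`): the unit pair `D = q⁸ v⁻¹`,
`D' = v`, `v = (η(τ)η(rτ)/(η(qτ)η(qrτ)))⁸`, of the finite chart `B = chartAlg x`, `x = j · j_q`:
`D · D' = q⁸`, `D' ∈ (V∞)ˣ`, `D ∈ (V₀)ˣ` for `V₀ = V∞.comap W`, and at every place `V ⊇ E` of
`F_{M·q}` with `j ∈ V` both are units. -/
theorem muQR_package (q r : ℕ) [NeZero q] [NeZero r] (hq : q.Prime) (hr : r.Prime ∨ r = 1)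
    (h : QRAdm q r) (M : ℕ) [NeZero M] (hrM : r ∣ M) :
    ∃ D D' : FE E (M * q),
      (D : LaurentSeries E) = castE E ((q : LaurentSeries ℤ) ^ 8 * vQRInvL q r) ∧
      (D' : LaurentSeries E) = castE E (vQRL q r) ∧
      D * D' = algebraMap E (FE E (M * q)) ((q : E) ^ 8) ∧
      D ∈ chartAlg P E (M * q) (xE E M q) ∧
      D' ∈ chartAlg P E (M * q) (xE E M q) ∧
      (∀ V : ValuationSubring (FE E (M * q)), IsVinf P E (M * q) V → D' ∈ V ∧ D'⁻¹ ∈ V) ∧
      (∀ (V : ValuationSubring (FE E (M * q))) (W : FE E (M * q) ≃ₐ[E] FE E (M * q)),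
        IsVinf P E (M * q) V → IsFricke E (M * q) W →
          D ∈ V.comap (W : FE E (M * q) →+* FE E (M * q)) ∧
          D⁻¹ ∈ V.comap (W : FE E (M * q) →+* FE E (M * q))) ∧
      (∀ V : ValuationSubring (FE E (M * q)), (∀ e : E, algebraMap E (FE E (M * q)) e ∈ V) →
        jE E (M * q) 1 (one_dvd _) ∈ V → (D ∈ V ∧ D⁻¹ ∈ V) ∧ (D' ∈ V ∧ D'⁻¹ ∈ V)) :=
  have hN : q * r ∣ M * q := qr_dvd_mul q r M hrM
  ⟨dQE E q r h (M * q) hN, vQE E q r h (M * q) hN, coe_dQE E q r h (M * q) hN,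
    coe_vQE E q r h (M * q) hN, dQE_mul_vQE E q r h (M * q) hN,
    dQE_mem_chartAlg P E q r h M hrM hq hr, vQE_mem_chartAlg P E q r h M hrM hq hr,
    fun _ hV => vQE_unit_vinf P E q r h (M * q) hN hV,
    fun _ W hV hW => dQE_unit_vzero P E q r h (M * q) hN W hV hW,
    fun V hE hj => pair_unit_of_j_mem464 E q r h (M * q) hN hq hr V hE hj⟩

/-- The package for an auxiliary prime `r ≡ 2 mod 3` of the level (`q ≠ 3` any prime). -/
theorem muQR_package_aux (q r : ℕ) [NeZero q] [NeZero r] (hq : q.Prime) (hq3 : q ≠ 3)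
    (hr : r.Prime) (hr2 : r % 3 = 2) (M : ℕ) [NeZero M] (hrM : r ∣ M) :
    ∃ D D' : FE E (M * q),
      (D : LaurentSeries E) = castE E ((q : LaurentSeries ℤ) ^ 8 * vQRInvL q r) ∧
      (D' : LaurentSeries E) = castE E (vQRL q r) ∧
      D * D' = algebraMap E (FE E (M * q)) ((q : E) ^ 8) ∧
      D ∈ chartAlg P E (M * q) (xE E M q) ∧
      D' ∈ chartAlg P E (M * q) (xE E M q) ∧
      (∀ V : ValuationSubring (FE E (M * q)), IsVinf P E (M * q) V → D' ∈ V ∧ D'⁻¹ ∈ V) ∧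
      (∀ (V : ValuationSubring (FE E (M * q))) (W : FE E (M * q) ≃ₐ[E] FE E (M * q)),
        IsVinf P E (M * q) V → IsFricke E (M * q) W →
          D ∈ V.comap (W : FE E (M * q) →+* FE E (M * q)) ∧
          D⁻¹ ∈ V.comap (W : FE E (M * q) →+* FE E (M * q))) ∧
      (∀ V : ValuationSubring (FE E (M * q)), (∀ e : E, algebraMap E (FE E (M * q)) e ∈ V) →
        jE E (M * q) 1 (one_dvd _) ∈ V → (D ∈ V ∧ D⁻¹ ∈ V) ∧ (D' ∈ V ∧ D'⁻¹ ∈ V)) := by
  have hq3' : ¬ 3 ∣ q := fun hd =>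
    hq3 ((Nat.prime_dvd_prime_iff_eq Nat.prime_three hq).mp hd).symm
  exact muQR_package P E q r hq (Or.inl hr) (QRAdm.of_r hq3' hr2) M hrM

/-- The package for a prime `q ≡ 1 mod 3` without auxiliary prime (`r = 1`,
`v = (η(τ)/η(qτ))¹⁶`). -/
theorem muQR_package_one (q : ℕ) [NeZero q] (hq : q.Prime) (hq1 : q % 3 = 1)
    (M : ℕ) [NeZero M] :
    ∃ D D' : FE E (M * q),
      (D : LaurentSeries E) = castE E ((q : LaurentSeries ℤ) ^ 8 * vQRInvL q 1) ∧
      (D' : LaurentSeries E) = castE E (vQRL q 1) ∧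
      D * D' = algebraMap E (FE E (M * q)) ((q : E) ^ 8) ∧
      D ∈ chartAlg P E (M * q) (xE E M q) ∧
      D' ∈ chartAlg P E (M * q) (xE E M q) ∧
      (∀ V : ValuationSubring (FE E (M * q)), IsVinf P E (M * q) V → D' ∈ V ∧ D'⁻¹ ∈ V) ∧
      (∀ (V : ValuationSubring (FE E (M * q))) (W : FE E (M * q) ≃ₐ[E] FE E (M * q)),
        IsVinf P E (M * q) V → IsFricke E (M * q) W →
          D ∈ V.comap (W : FE E (M * q) →+* FE E (M * q)) ∧
          D⁻¹ ∈ V.comap (W : FE E (M * q) →+* FE E (M * q))) ∧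
      (∀ V : ValuationSubring (FE E (M * q)), (∀ e : E, algebraMap E (FE E (M * q)) e ∈ V) →
        jE E (M * q) 1 (one_dvd _) ∈ V → (D ∈ V ∧ D⁻¹ ∈ V) ∧ (D' ∈ V ∧ D'⁻¹ ∈ V)) :=
  muQR_package P E q 1 hq (Or.inr rfl) (QRAdm.of_q hq1 (by norm_num)) M (one_dvd M)

end Package

end Fermat.Agent.S59.UnitQR.H464
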